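import Mathlib

/-! # S48 / MODL / Y : the telescoping identity `∑_{b<M} -(b(M-b))²/(4M) w^b = w(1+4w+w²)/(1-w)⁴` for `w^M = 1`, `w ≠ 1`
(the constant term of the Eisenstein family `y_(0,x)`); Mathlib only. -/

set_option autoImplicit false

namespace Fermat.Agent.S48.ModL.Y.Tel

variable {K : Type*} [Field K]

/-- `f(x) = -(x (M - x))² / (4 M)` -/
def ff (M x : K) : K := -((x * (M - x)) ^ 2) / (4 * M)

/-- the discrete primitive of `f(x) wˣ` -/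
def gg (M w x : K) : K :=
  ff M x / (w - 1) - w * (ff M (x + 1) - ff M x) / (w - 1) ^ 2
    + w ^ 2 * (ff M (x + 2) - 2 * ff M (x + 1) + ff M x) / (w - 1) ^ 3
    - w ^ 3 * (ff M (x + 3) - 3 * ff M (x + 2) + 3 * ff M (x + 1) - ff M x) / (w - 1) ^ 4
    + w ^ 4 * (ff M (x + 4) - 4 * ff M (x + 3) + 6 * ff M (x + 2) - 4 * ff M (x + 1) + ff M x)
      / (w - 1) ^ 5

lemma gg_step (M w x : K) (hM : 4 * M ≠ 0) (hw : w ≠ 1) :
    w * gg M w (x + 1) - gg M w x = ff M x := by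
  have h1 : w - 1 ≠ 0 := sub_ne_zero.mpr hw
  have hM' : M ≠ 0 := right_ne_zero_of_mul hM
  have h4 : (4 : K) ≠ 0 := left_ne_zero_of_mul hM
  unfold gg ff
  field_simp
  ring

lemma gg_diff (M w : K) (hM : 4 * M ≠ 0) (hw : w ≠ 1) :
    gg M w M - gg M w 0 = w * (1 + 4 * w + w ^ 2) / (1 - w) ^ 4 := by
  have h1 : w - 1 ≠ 0 := sub_ne_zero.mpr hw
  have h2 : 1 - w ≠ 0 := sub_ne_zero.mpr (Ne.symm hw)
  have hM' : M ≠ 0 := right_ne_zero_of_mul hM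
  have h4 : (4 : K) ≠ 0 := left_ne_zero_of_mul hM
  unfold gg ff
  field_simp
  ring

lemma sum_range_ff (M w : K) (hM : 4 * M ≠ 0) (hw : w ≠ 1) (n : ℕ) :
    ∑ b ∈ Finset.range n, ff M (b : K) * w ^ b = gg M w n * w ^ n - gg M w 0 := by
  induction n with
  | zero => simp
  | succ n ih =>
    rw [Finset.sum_range_succ, ih, ← gg_step M w n hM hw]
    push_cast
    ring

/-- **telescoping identity**. -/
theorem sum_range_const (M : ℕ) (w : K) (hM : (4 * (M : K)) ≠ 0) (hw : w ^ M = 1) (hw1 : w ≠ 1) :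
    ∑ b ∈ Finset.range M, (-(((b : K) * ((M : K) - b)) ^ 2) / (4 * M)) * w ^ b =
      w * (1 + 4 * w + w ^ 2) / (1 - w) ^ 4 := by
  have := sum_range_ff (M : K) w hM hw1 M
  rw [hw, mul_one, gg_diff _ _ hM hw1] at this
  exact this

theorem sum_zmod_const (M : ℕ) [NeZero M] (w : K) (hM : (4 * (M : K)) ≠ 0) (hw : w ^ M = 1)
    (hw1 : w ≠ 1) :
    ∑ b : ZMod M, (-((((b.val : ℕ) : K) * ((M : K) - (b.val : ℕ))) ^ 2) / (4 * M)) * w ^ b.val =
      w * (1 + 4 * w + w ^ 2) / (1 - w) ^ 4 := by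
  rw [← sum_range_const M w hM hw hw1]
  obtain ⟨n, rfl⟩ : ∃ n, M = n + 1 := ⟨M - 1, (Nat.succ_pred (NeZero.ne M)).symm⟩
  exact Fin.sum_univ_eq_sum_range
    (fun b : ℕ => (-(((b : K) * (((n + 1 : ℕ) : K) - b)) ^ 2) / (4 * ((n + 1 : ℕ) : K))) * w ^ b) (n + 1)

end Fermat.Agent.S48.ModL.Y.Tel
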