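import Fermat.Agent.S48.ModL.F.Grp
import Fermat.Agent.S48.ModL.F.YK
import Fermat.Agent.S48.ModL.Y.Telescope
import Fermat.Agent.RED.Gauss.Basic

/-!
# S48 / MODL / [SER] : integrality and faithfulness of the Igusa family `yK a` on `t`-expansions

`A` a valuation subring of `Qbar` in which `M` is invertible, `π : A →+* k` any ring homomorphism to a field.
* (S1) `exists_iota_eq_yK` : for `a ≠ 0` the `t`-expansion of `yK a` has coefficients in `A`.
* (S2) `eq_or_eq_neg_of_pi_eq` : if the reductions of `yK a` and `yK (1,x)` agree then `a = ±(1,x)`.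
* `exists_pi_ne` : for `g ∉ PG M` there is `x` such that the reductions of `yK ((1,x) g⁻¹)`, `yK (1,x)` differ.
-/

set_option autoImplicit false

open Function ModularCurve CongruenceSubgroup
open scoped MatrixGroups
open Fermat.Agent.S24 Fermat.Agent.GAL Fermat.Agent.RED.Gauss

namespace Fermat.Agent.S48.ModL.Ser

open Y F

noncomputable section

section generic

variable {L : Type*} [Field L] (A : ValuationSubring L)

/-- a Laurent series all of whose coefficients are in `A` comes from `A((t))`. -/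
theorem exists_iota_eq_of_coeff_mem (z : LaurentSeries L) (h : ∀ n, z.coeff n ∈ A) :
    ∃ s : LaurentSeries A, iota A s = z := by
  refine ⟨⟨fun n => ⟨z.coeff n, h n⟩, z.isPWO_support.mono ?_⟩, ?_⟩
  · intro n hn
    rw [Function.mem_support] at hn
    rw [HahnSeries.mem_support]
    intro h0
    exact hn (Subtype.ext h0)
  · ext n
    rfl

variable {A}

theorem mem_of_pow_eq_one {w : L} {n : ℕ} (hn : n ≠ 0) (hw : w ^ n = 1) : w ∈ A := by
  rcases A.mem_or_inv_mem w with h | h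
  · exact h
  · have h1 : w = (w⁻¹) ^ (n - 1) := by
      have hw0 : w ≠ 0 := by
        rintro rfl
        rw [zero_pow hn] at hw
        exact zero_ne_one hw
      obtain ⟨m, rfl⟩ : ∃ m, n = m + 1 := ⟨n - 1, (Nat.succ_pred hn).symm⟩
      rw [Nat.add_sub_cancel, inv_pow]
      exact eq_inv_of_mul_eq_one_left (by rw [mul_comm, ← pow_succ, hw])
    rw [h1]
    exact pow_mem h _

theorem sum_range_pow_eq_zero {w : L} {n : ℕ} (hw : w ^ n = 1) (hw1 : w ≠ 1) :
    ∑ i ∈ Finset.range n, w ^ i = 0 := by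
  have h := mul_neg_geom_sum w n
  rw [hw, sub_self] at h
  exact (mul_eq_zero.mp h).resolve_left (sub_ne_zero.mpr (Ne.symm hw1))

/-- `1 - w` divides `n` in `ℤ[w]`. -/
theorem one_sub_mul_eq {w : L} {n : ℕ} (hw : w ^ n = 1) (hw1 : w ≠ 1) :
    (1 - w) * ∑ j ∈ Finset.range n, ∑ i ∈ Finset.range j, w ^ i = n := by
  rw [Finset.mul_sum]
  simp only [mul_neg_geom_sum]
  rw [Finset.sum_sub_distrib, sum_range_pow_eq_zero hw hw1]
  simp

theorem inv_one_sub_mem {w : L} {n : ℕ} (hn : ((n : L))⁻¹ ∈ A) (hn0 : (n : L) ≠ 0) (hw : w ^ n = 1)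
    (hw1 : w ≠ 1) : (1 - w)⁻¹ ∈ A := by
  have hn' : n ≠ 0 := by
    rintro rfl
    exact hn0 Nat.cast_zero
  have hwA : w ∈ A := mem_of_pow_eq_one hn' hw
  have h := one_sub_mul_eq hw hw1
  have h1 : (1 - w)⁻¹ = (∑ j ∈ Finset.range n, ∑ i ∈ Finset.range j, w ^ i) * ((n : L))⁻¹ := by
    rw [← h, mul_inv, mul_comm (1 - w)⁻¹, ← mul_assoc, mul_inv_cancel₀, one_mul]
    intro h0
    rw [h0, mul_zero] at h
    exact hn0 h.symm
  rw [h1]
  exact mul_mem (sum_mem fun j _ => sum_mem fun i _ => pow_mem hwA _) hn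

end generic

variable (M : ℕ) [NeZero M]

theorem zetK_pow : zetK M ^ M = 1 := (isPrimitiveRoot_zetK M).pow_eq_one

theorem zpK_pow (x : ZMod M) : zpK M x ^ M = 1 := by
  rw [zpK, ← pow_mul, mul_comm, pow_mul, zetK_pow, one_pow]

theorem zpK_mul_eq_pow (x b : ZMod M) : zpK M (x * b) = zpK M x ^ b.val := by
  rw [zpK, zpK, ← pow_mul, ZMod.val_mul, ← pow_eq_pow_mod _ (zetK_pow M)]

theorem zpK_ne_one {x : ZMod M} (hx : x ≠ 0) : zpK M x ≠ 1 := by
  intro h
  rw [← zpK_zero M] at h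
  exact hx (zpK_injective M h)

theorem exists_int_zCoeff (a b : ZMod M) (n : ℕ) (hn : n ≠ 0) : ∃ z : ℤ, zCoeff M a b n = z := by
  unfold zCoeff
  rw [if_neg hn]
  refine ⟨∑ m ∈ n.divisors, (m : ℤ) ^ 3 *
    ((if ((n / m : ℕ) : ZMod M) = a ∧ ((m : ℕ) : ZMod M) = b then 1 else 0) +
      (if ((n / m : ℕ) : ZMod M) = -a ∧ ((m : ℕ) : ZMod M) = -b then 1 else 0)), ?_⟩
  push_cast
  rfl

theorem sum_zmod_pow_val {K : Type*} [Field K] (w : K) :
    ∑ b : ZMod M, w ^ b.val = ∑ i ∈ Finset.range M, w ^ i := by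
  obtain ⟨n, rfl⟩ : ∃ n, M = n + 1 := ⟨M - 1, (Nat.succ_pred (NeZero.ne M)).symm⟩
  exact Fin.sum_univ_eq_sum_range (fun b : ℕ => w ^ b) (n + 1)

/-- the coefficients of the numerator of `yK a`. -/
def cf (a : Fin 2 → ZMod M) (n : ℕ) : Kb :=
  ∑ b : ZMod M, zpK M (a 1 * b) * algebraMap ℚ Kb (zCoeff M (a 0) b n)

theorem cf_zero_of_ne (a : Fin 2 → ZMod M) (h0 : a 0 ≠ 0) : cf M a 0 = 0 := by
  unfold cf zCoeff
  simp [h0]

theorem cf_zero_of_eq (a : Fin 2 → ZMod M) (h0 : a 0 = 0) (h1 : a 1 ≠ 0) :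
    cf M a 0 = zpK M (a 1) * (1 + 4 * zpK M (a 1) + zpK M (a 1) ^ 2) / (1 - zpK M (a 1)) ^ 4 := by
  have hM0 : (M : Kb) ≠ 0 := Nat.cast_ne_zero.mpr (NeZero.ne M)
  have h4M : 4 * (M : Kb) ≠ 0 := mul_ne_zero (by norm_num) hM0
  rw [← Tel.sum_zmod_const M (zpK M (a 1)) h4M (zpK_pow M _) (zpK_ne_one M h1)]
  have h2 : ∑ b : ZMod M, ((M : Kb) ^ 3 / 120) * zpK M (a 1) ^ b.val = 0 := by
    rw [← Finset.mul_sum, sum_zmod_pow_val, sum_range_pow_eq_zero (zpK_pow M _) (zpK_ne_one M h1),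
      mul_zero]
  rw [← add_zero (∑ b : ZMod M, _ * zpK M (a 1) ^ b.val), ← h2, ← Finset.sum_add_distrib]
  unfold cf zCoeff
  refine Finset.sum_congr rfl fun b _ => ?_
  rw [if_pos rfl, if_pos h0, zpK_mul_eq_pow, eq_ratCast]
  push_cast
  ring

variable {M} in
theorem cf_mem {A : ValuationSubring Kb} (hA : ((M : Kb))⁻¹ ∈ A) (a : Fin 2 → ZMod M) (ha : a ≠ 0)
    (n : ℕ) : cf M a n ∈ A := by
  have hM0 : (M : Kb) ≠ 0 := Nat.cast_ne_zero.mpr (NeZero.ne M)
  have hz : ∀ x : ZMod M, zpK M x ∈ A := fun x => mem_of_pow_eq_one (NeZero.ne M) (zpK_pow M x)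
  by_cases hn : n = 0
  · subst hn
    by_cases h0 : a 0 = 0
    · have h1 : a 1 ≠ 0 := by
        intro h1
        apply ha
        funext i
        fin_cases i
        · exact h0
        · exact h1
      rw [cf_zero_of_eq M a h0 h1, div_eq_mul_inv, ← inv_pow]
      refine mul_mem (mul_mem (hz _) (add_mem (add_mem (one_mem _) (mul_mem ?_ (hz _)))
        (pow_mem (hz _) _))) (pow_mem (inv_one_sub_mem hA hM0 (zpK_pow M _) (zpK_ne_one M h1)) _)
      exact_mod_cast natCast_mem A 4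
    · rw [cf_zero_of_ne M a h0]
      exact zero_mem _
  · refine sum_mem fun b _ => mul_mem (hz _) ?_
    obtain ⟨z, hz'⟩ := exists_int_zCoeff M (a 0) b n hn
    rw [hz', eq_ratCast]
    push_cast
    exact intCast_mem A z

variable (hM : 2 < M)

theorem coe_algebraMap_mul (c : Kb) (z : (lvlY M hM).FK Kb) :
    ((algebraMap Kb _ c * z : (lvlY M hM).FK Kb) : LaurentSeries Kb) =
      HahnSeries.C c * (z : LaurentSeries Kb) := by
  have h4 : ((algebraMap Kb ((lvlY M hM).FK Kb) c : (lvlY M hM).FK Kb) :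
      LaurentSeries Kb) = HahnSeries.C c := by
    show algebraMap Kb (LaurentSeries Kb) c = _
    rw [algebraMap_laurentSeries_eq_single]
    rfl
  rw [← h4]
  rfl

/-- the `t`-expansion of `yK a`. -/
theorem coe_yK (a : Fin 2 → ZMod M) :
    ((yK M hM a : (lvlY M hM).FK Kb) : LaurentSeries Kb) =
      HahnSeries.ofPowerSeries ℤ Kb (PowerSeries.mk (cf M a)) * coeffEmb Kb (qExpand ℚ M fac) := by
  have h1 : ∀ b : ZMod M, ((algebraMap Kb _ (zpK M (a 1 * b)) * zK M hM (a 0) b :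
      (lvlY M hM).FK Kb) : LaurentSeries Kb) =
      HahnSeries.ofPowerSeries ℤ Kb (PowerSeries.C (zpK M (a 1 * b)) *
        (zS M (a 0) b).map (algebraMap ℚ Kb)) * coeffEmb Kb (qExpand ℚ M fac) := by
    intro b
    rw [coe_algebraMap_mul, coe_zK, genZ, map_mul, map_mul, HahnSeries.ofPowerSeries_C, coeffEmb,
      coeffMap_ofPowerSeries, mul_assoc]
  rw [yK, AddSubmonoidClass.coe_finsetSum, Finset.sum_congr rfl fun b _ => h1 b, ← Finset.sum_mul,
    ← map_sum]
  congr 2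
  ext n
  rw [map_sum, PowerSeries.coeff_mk, cf]
  refine Finset.sum_congr rfl fun b _ => ?_
  rw [PowerSeries.coeff_C_mul, PowerSeries.coeff_map, zS, PowerSeries.coeff_mk]

/-- `E₄²/Δ (t^M)` over `A`. -/
def facA (A : ValuationSubring Kb) : LaurentSeries A :=
  qExpand A M (HahnSeries.single (-1 : ℤ) 1 *
    HahnSeries.ofPowerSeries ℤ A (facNum.map (Int.castRingHom A)))

theorem iota_facA (A : ValuationSubring Kb) : iota A (facA M A) = coeffEmb Kb (qExpand ℚ M fac) := by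
  rw [facA, iota, coeffMap_qExpand, coeffEmb, coeffMap_qExpand, fac]
  congr 1
  rw [map_mul, map_mul,
    coeffMap_single, coeffMap_single, map_one A.subtype, map_one (algebraMap ℚ Kb),
    coeffMap_ofPowerSeries, coeffMap_ofPowerSeries,
    ← RingHom.comp_apply (PowerSeries.map (algebraMap ℚ Kb)) (PowerSeries.map (Int.castRingHom ℚ)),
    ← RingHom.comp_apply (PowerSeries.map A.subtype) (PowerSeries.map (Int.castRingHom A)),
    ← PowerSeries.map_comp, ← PowerSeries.map_comp,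
    RingHom.ext_int ((algebraMap ℚ Kb).comp (Int.castRingHom ℚ)) (Int.castRingHom Kb),
    RingHom.ext_int (A.subtype.comp (Int.castRingHom A)) (Int.castRingHom Kb)]

variable {M} in
/-- **(S1)** the `t`-expansion of `yK a`, `a ≠ 0`, has coefficients in `A`. -/
theorem exists_iota_eq_yK {A : ValuationSubring Kb} (hA : ((M : Kb))⁻¹ ∈ A) (a : Fin 2 → ZMod M)
    (ha : a ≠ 0) :
    ∃ s : LaurentSeries A, iota A s = ((yK M hM a : (lvlY M hM).FK Kb) : LaurentSeries Kb) := by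
  refine ⟨HahnSeries.ofPowerSeries ℤ A (PowerSeries.mk fun n => ⟨cf M a n, cf_mem hA a ha n⟩) *
    facA M A, ?_⟩
  rw [map_mul, iota_facA, coe_yK, iota, coeffMap_ofPowerSeries]
  congr 2

/-- `ζ^x` as an element of `A`. -/
def zA (A : ValuationSubring Kb) (x : ZMod M) : A :=
  ⟨zpK M x, mem_of_pow_eq_one (NeZero.ne M) (zpK_pow M x)⟩

variable {M}
variable {k : Type*} [Field k] {A : ValuationSubring Kb} (π : A →+* k)

theorem pi_zA_ne_zero (x : ZMod M) : π (zA M A x) ≠ 0 := by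
  have h : zA M A x * zA M A (-x) = 1 := Subtype.ext (by
    show zpK M x * zpK M (-x) = 1
    rw [← zpK_add, add_neg_cancel, zpK_zero])
  intro h0
  have h1 := congrArg π h
  rw [map_mul, h0, zero_mul, map_one] at h1
  exact zero_ne_one h1

/-- reduction is injective on `M`-th roots of unity. -/
theorem pi_zA_injective (hA : ((M : Kb))⁻¹ ∈ A) {x y : ZMod M} (hxy : π (zA M A x) = π (zA M A y)) :
    x = y := by
  by_contra hne
  have hM0 : (M : Kb) ≠ 0 := Nat.cast_ne_zero.mpr (NeZero.ne M)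
  have hne' : x - y ≠ 0 := sub_ne_zero.mpr hne
  have h1 : (1 - zpK M (x - y)) ≠ 0 := sub_ne_zero.mpr (Ne.symm (zpK_ne_one M hne'))
  have h : (zA M A y - zA M A x) *
      (⟨(1 - zpK M (x - y))⁻¹, inv_one_sub_mem hA hM0 (zpK_pow M _) (zpK_ne_one M hne')⟩ *
        zA M A (-y)) = 1 := Subtype.ext (by
    show (zpK M y - zpK M x) * ((1 - zpK M (x - y))⁻¹ * zpK M (-y)) = 1
    have e1 : zpK M x = zpK M (x - y) * zpK M y := by rw [← zpK_add, sub_add_cancel]
    have e2 : zpK M y * zpK M (-y) = 1 := by rw [← zpK_add, add_neg_cancel, zpK_zero]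
    rw [e1]
    calc _ = ((1 - zpK M (x - y)) * (1 - zpK M (x - y))⁻¹) * (zpK M y * zpK M (-y)) := by ring
      _ = 1 := by rw [e2, mul_inv_cancel₀ h1, one_mul])
  have h2 := congrArg π h
  rw [map_mul, map_sub, hxy, sub_self, zero_mul, map_one] at h2
  exact zero_ne_one h2

theorem coeff_of_iota_eq (a : Fin 2 → ZMod M) (s : LaurentSeries A)
    (hs : iota A s = ((yK M hM a : (lvlY M hM).FK Kb) : LaurentSeries Kb)) :
    s.coeff (1 - (M : ℤ)) =
      (if a 0 = 1 then zA M A (a 1) else 0) + (if a 0 = -1 then zA M A (-(a 1)) else 0) := by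
  apply Subtype.ext
  have h := congrArg (fun z => HahnSeries.coeff z (1 - (M : ℤ))) hs
  simp only [coeff_yK] at h
  rw [show ((s.coeff (1 - (M : ℤ)) : A) : Kb) = (iota A s).coeff (1 - (M : ℤ)) from rfl, h]
  split_ifs <;> simp [zA]

/-- **(S2)** if the reductions of `yK a` and `yK (1,x)` agree then `a = ±(1,x)`. -/
theorem eq_or_eq_neg_of_pi_eq (hA : ((M : Kb))⁻¹ ∈ A) (x : ZMod M) (a : Fin 2 → ZMod M)
    (s s' : LaurentSeries A)
    (hs : iota A s = ((yK M hM ![1, x] : (lvlY M hM).FK Kb) : LaurentSeries Kb))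
    (hs' : iota A s' = ((yK M hM a : (lvlY M hM).FK Kb) : LaurentSeries Kb))
    (h : pi π s' = pi π s) : a = ![1, x] ∨ a = -![1, x] := by
  have hne := one_ne_neg_one_zmod M hM
  have h1 : π (s'.coeff (1 - (M : ℤ))) = π (s.coeff (1 - (M : ℤ))) :=
    congrArg (fun z => HahnSeries.coeff z (1 - (M : ℤ))) h
  rw [coeff_of_iota_eq hM a s' hs', coeff_of_iota_eq hM _ s hs] at h1
  simp only [Matrix.cons_val_zero, Matrix.cons_val_one, if_true, hne, if_false, add_zero] at h1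
  by_cases h0 : a 0 = 1
  · have h0' : a 0 ≠ -1 := h0 ▸ hne
    rw [if_pos h0, if_neg h0', add_zero] at h1
    left
    funext i
    fin_cases i
    · exact h0
    · exact pi_zA_injective π hA h1
  · by_cases h0' : a 0 = -1
    · rw [if_neg h0, if_pos h0', zero_add] at h1
      right
      have h2 := pi_zA_injective π hA h1
      funext i
      fin_cases i
      · simpa using h0'
      · show a 1 = -x
        rw [← h2, neg_neg]
    · rw [if_neg h0, if_neg h0', add_zero, map_zero] at h1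
      exact absurd h1.symm (pi_zA_ne_zero π x)

theorem actV_ne_zero (a : Fin 2 → ZMod M) (ha : a ≠ 0) (g : SL(2, ℤ)) : actV M a g ≠ 0 := by
  intro h
  apply ha
  have h1 : actV M (actV M a g) g⁻¹ = a := by
    rw [← actV_mul, mul_inv_cancel, actV_one]
  rw [← h1, h]
  funext j
  rw [actV_apply]
  simp

include hM in
theorem vec_one_ne_zero (x : ZMod M) : (![1, x] : Fin 2 → ZMod M) ≠ 0 := by
  intro h
  have h1 := congrFun h 0
  have : Fact (1 < M) := ⟨by omega⟩
  exact one_ne_zero h1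

/-- **faithfulness**: for `g ∉ ±Γ(M)` some `yK (1,x)` and its conjugate `yK ((1,x) g⁻¹)` have different reductions. -/
theorem exists_pi_ne (hM4 : ¬ M ∣ 4) (hA : ((M : Kb))⁻¹ ∈ A) (g : SL(2, ℤ)) (hg : g ∉ PG M)
    (s : (Fin 2 → ZMod M) → LaurentSeries A)
    (hs : ∀ a, a ≠ 0 → iota A (s a) = ((yK M hM a : (lvlY M hM).FK Kb) : LaurentSeries Kb)) :
    ∃ x : ZMod M, pi π (s (actV M ![1, x] g⁻¹)) ≠ pi π (s ![1, x]) := by
  by_contra hcon
  push Not at hcon
  apply hg
  have h1 : g⁻¹ ∈ PG M := by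
    refine mem_PG_of_actV M hM4 g⁻¹ fun x => ?_
    exact eq_or_eq_neg_of_pi_eq hM π hA x _ _ _ (hs _ (vec_one_ne_zero hM x))
      (hs _ (actV_ne_zero _ (vec_one_ne_zero hM x) _)) (hcon x)
  simpa using (PG M).inv_mem h1

/-- faithfulness, in the shape consumed by `Igusa/Inst.lean`. -/
theorem exists_pi_ne' (hM4 : ¬ M ∣ 4) (hA : ((M : Kb))⁻¹ ∈ A) (g : SL(2, ℤ)) (hg : g ∉ PG M) :
    ∃ (a : Fin 2 → ZMod M) (s s' : LaurentSeries A), a ≠ 0 ∧
      iota A s = ((yK M hM a : (lvlY M hM).FK Kb) : LaurentSeries Kb) ∧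
      iota A s' = ((yK M hM (actV M a g⁻¹) : (lvlY M hM).FK Kb) : LaurentSeries Kb) ∧
      pi π s ≠ pi π s' := by
  classical
  choose s hs using fun (a : Fin 2 → ZMod M) (ha : a ≠ 0) => exists_iota_eq_yK hM hA a ha
  obtain ⟨x, hx⟩ := exists_pi_ne hM π hM4 hA g hg (fun a => if ha : a ≠ 0 then s a ha else 0)
    (fun a ha => by rw [dif_pos ha]; exact hs a ha)
  have h1 := vec_one_ne_zero hM x
  have h2 := actV_ne_zero _ h1 g⁻¹
  rw [dif_pos h1, dif_pos h2] at hx
  exact ⟨![1, x], s _ h1, s _ h2, h1, hs _ h1, hs _ h2, hx.symm⟩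

end

end Fermat.Agent.S48.ModL.Ser
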