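import Fermat.Agent.S48.ModL.Y.Act

/-!
# S48 / MODL / Y : the level `lvlY M`

`G = GY M`, generators `j(d τ)` (`d ∣ M²`) and the Eisenstein functions `holZ M a b`.
-/

set_option autoImplicit false

open UpperHalfPlane hiding I
open Function ModularCurve CongruenceSubgroup ModularForm EisensteinSeries
open scoped Manifold MatrixGroups Real
open Fermat.Agent.S24

namespace Fermat.Agent.S48.ModL.Y

noncomputable section

/-- the index set of the generators -/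
abbrev Idx (M : ℕ) : Type := {d : ℕ // d ∈ (M ^ 2).divisors} ⊕ (ZMod M × ZMod M)

instance neZeroIdx {M : ℕ} (d : {d : ℕ // d ∈ (M ^ 2).divisors}) : NeZero (d : ℕ) :=
  ⟨(Nat.pos_of_mem_divisors d.2).ne'⟩

variable (M : ℕ) [NeZero M]

theorem Gamma_sq_le_GY : Gamma (M ^ 2) ≤ GY M := by
  intro γ hγ
  rw [Gamma_mem] at hγ
  refine ⟨by rw [Gamma0_mem]; exact hγ.2.2.1, Or.inl ?_⟩
  have h := hγ.2.2.2
  have h2 : ((M ^ 2 : ℕ) : ℤ) ∣ γ 1 1 - 1 := by
    rw [← ZMod.intCast_zmod_eq_zero_iff_dvd]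
    push_cast
    rw [h, sub_self]
  have h3 : (M : ℤ) ∣ γ 1 1 - 1 :=
    dvd_trans (by push_cast; exact Dvd.intro_left ((M : ℤ) ^ 1) (by ring)) h2
  have h4 := (ZMod.intCast_zmod_eq_zero_iff_dvd _ M).mpr h3
  push_cast at h4
  exact sub_eq_zero.mp h4

theorem neg_one_mem_GY : (-1 : SL(2, ℤ)) ∈ GY M :=
  ⟨by rw [Gamma0_mem]; simp, Or.inr (by simp)⟩

theorem T_mem_GY : ModularGroup.T ∈ GY M :=
  ⟨by rw [Gamma0_mem, ModularGroup.coe_T]; simp, Or.inl (by rw [ModularGroup.coe_T]; simp)⟩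

theorem toLaurent_jdPer' (d : ℕ) [NeZero d] :
    toLaurent 1 (jdPer d) = coeffEmb ℂ (qExpand ℚ d jq) := by
  rw [toLaurent_jdPer]
  exact (ModularCurve.coeffMap_jqNModC (algebraMap ℚ ℂ) d).symm

/-- **the level `Y`**. -/
def lvlY (hM : 2 < M) : Lvl where
  G := GY M
  h := M ^ 2
  h_ne := pow_ne_zero 2 (NeZero.ne M)
  Gamma_le := Gamma_sq_le_GY M
  neg_one_mem := neg_one_mem_GY M
  T_mem := T_mem_GY M
  ι := Idx M
  fin := inferInstance
  gen := Sum.elim (fun d => qExpand ℚ (d : ℕ) jq) (fun x => genZ M x.1 x.2)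
  hol := Sum.elim (fun d => jdHol (d : ℕ)) (fun x => holZ M x.1 x.2)
  per := Sum.elim (fun d => jdPer (d : ℕ)) (fun x => perZ M x.1 x.2)
  toLaurent_per := by
    rintro (d | x)
    · exact toLaurent_jdPer' d
    · exact toLaurent_perZ M x.1 x.2
  toMer_per := by
    rintro (d | x)
    · exact toMer_jdPer d
    · exact toMer_perZ M x.1 x.2
  growth := by
    rintro (d | x) g
    · exact modGrowth_jd_smul (d : ℕ) g⁻¹
    · exact modGrowth_actHol_holZ M x.1 x.2 g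
  inv := by
    rintro (d | x) γ hγ
    · exact actHol_jdHol_of_mem isSLInvariant_jfun (Nat.dvd_of_mem_divisors d.2) hγ.1
    · exact actHol_holZ_of_mem_GY M γ hγ x.1 x.2
  sep := by
    intro g hg
    have hmem : M ^ 2 ∈ (M ^ 2).divisors :=
      Nat.mem_divisors_self _ (pow_ne_zero 2 (NeZero.ne M))
    exact mem_GY_of_fix M hM g (hg (Sum.inl ⟨M ^ 2, hmem⟩)) (hg (Sum.inr (1, 1)))
  i₀ := Sum.inl ⟨1, Nat.one_mem_divisors.mpr (pow_ne_zero 2 (NeZero.ne M))⟩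
  gen_i₀ := qExpand_one_apply _

variable (hM : 2 < M)

@[simp] theorem lvlY_G : (lvlY M hM).G = GY M := rfl

@[simp] theorem lvlY_h : (lvlY M hM).h = M ^ 2 := rfl

theorem lvlY_gen_inl (d : {d : ℕ // d ∈ (M ^ 2).divisors}) :
    (lvlY M hM).gen (Sum.inl d) = qExpand ℚ (d : ℕ) jq := rfl

theorem lvlY_gen_inr (x : ZMod M × ZMod M) : (lvlY M hM).gen (Sum.inr x) = genZ M x.1 x.2 := rfl

theorem lvlY_hol_inl (d : {d : ℕ // d ∈ (M ^ 2).divisors}) :
    (lvlY M hM).hol (Sum.inl d) = jdHol (d : ℕ) := rfl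

theorem lvlY_hol_inr (x : ZMod M × ZMod M) : (lvlY M hM).hol (Sum.inr x) = holZ M x.1 x.2 := rfl

/-- the function field of `X₀(M²)` is contained in that of `Y`. -/
theorem full_le_F₀ : modularFunctionFieldFull (M ^ 2) ≤ (lvlY M hM).F₀ := by
  rw [modularFunctionFieldFull, IntermediateField.adjoin_le_iff]
  rintro _ ⟨d, hd0, hd, rfl⟩
  exact (lvlY M hM).gen_mem (Sum.inl ⟨d, Nat.mem_divisors.mpr ⟨hd, pow_ne_zero 2 (NeZero.ne M)⟩⟩)

/-- the permutation of the generators induced by `u ∈ (ℤ/M)ˣ`. -/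
def permIdx (u : (ZMod M)ˣ) : Equiv.Perm (Idx M) :=
  Equiv.sumCongr (Equiv.refl _)
    { toFun := fun x => ((u : ZMod M) * x.1, (u : ZMod M) * x.2)
      invFun := fun x => (((u⁻¹ : (ZMod M)ˣ) : ZMod M) * x.1, ((u⁻¹ : (ZMod M)ˣ) : ZMod M) * x.2)
      left_inv := fun x => by simp [← mul_assoc]
      right_inv := fun x => by simp [← mul_assoc] }

/-- **diamonds**: `s ∈ Γ₀(M²)` with `s₁₁ ≡ u` permutes the generators by `permIdx u`. -/
theorem actHol_hol_of_mem_Gamma0 (s : SL(2, ℤ)) (hs : s ∈ Gamma0 (M ^ 2)) (u : (ZMod M)ˣ)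
    (hu : ((s 1 1 : ℤ) : ZMod M) = u) (i : Idx M) :
    actHol s ((lvlY M hM).hol i) = (lvlY M hM).hol (permIdx M u i) := by
  rcases i with d | x
  · exact actHol_jdHol_of_mem isSLInvariant_jfun (Nat.dvd_of_mem_divisors d.2) hs
  · have := actHol_holZ_of_mem M s hs x.1 x.2
    rw [hu] at this
    exact this

end

end Fermat.Agent.S48.ModL.Y
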