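import Fermat.Agent.S48.ModL.Y.Pack
import Fermat.Agent.S24.JGrowth

/-!
# S48 / MODL / Y, WP [Y2]: the action of `SL(2,ℤ)` on the Eisenstein generators

* `conjM γ = δ γ δ⁻¹`, `δ = diag(M,1)`, for `γ ∈ Γ₀(M)`; `M (γ τ) = conjM γ (M τ)`.
* for `γ ∈ Γ₀(M²)`: `conjM γ ≡ diag(γ₀₀, γ₁₁)` mod `M`, hence (`holGfun_of_scal`)
  `holG a ∘ γ = holG (γ₀₀ a₀, γ₁₁ a₁)` and `holZ (a,b) ∘ γ = holZ (γ₀₀ a, γ₀₀ b)`.
  As `actHol γ f = f ∘ γ⁻¹`: `actHol γ (holZ a b) = holZ (γ₁₁ a) (γ₁₁ b)`.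
* growth: `S24.exists_hermite_smul M g : M (g τ) = g' ((a τ + b)/e)`, weight `0` invariance
  (`Gf_smul`, `facFun_smul`), then as in `S24.jd_smul_growth`.
-/

set_option autoImplicit false

open UpperHalfPlane hiding I
open Function ModularCurve CongruenceSubgroup ModularForm EisensteinSeries
open scoped Manifold MatrixGroups Real
open Fermat.Agent.S24

namespace Fermat.Agent.S48.ModL.Y

noncomputable section

variable (M : ℕ) [NeZero M]

/-- `δ γ δ⁻¹` for `γ ∈ Γ₀(M)`. -/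
theorem exists_conjM (γ : SL(2, ℤ)) (hγ : γ ∈ Gamma0 M) :
    ∃ γ' : SL(2, ℤ), γ' 0 0 = γ 0 0 ∧ γ' 0 1 = M * γ 0 1 ∧ (M : ℤ) * γ' 1 0 = γ 1 0 ∧
      γ' 1 1 = γ 1 1 ∧ ∀ τ : ℍ, scal M (γ • τ) = γ' • scal M τ := by
  rw [Gamma0_mem, ZMod.intCast_zmod_eq_zero_iff_dvd] at hγ
  obtain ⟨c, hc⟩ := hγ
  have hdet : γ 0 0 * γ 1 1 - γ 0 1 * γ 1 0 = 1 := by
    have := γ.det_coe
    rwa [Matrix.det_fin_two] at this
  have hdet' : (!![γ 0 0, M * γ 0 1; c, γ 1 1] : Matrix (Fin 2) (Fin 2) ℤ).det = 1 := by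
    rw [Matrix.det_fin_two_of]
    rw [hc] at hdet
    linear_combination hdet
  let γ' : SL(2, ℤ) := ⟨!![γ 0 0, M * γ 0 1; c, γ 1 1], hdet'⟩
  refine ⟨γ', rfl, rfl, hc.symm, rfl, fun τ => ?_⟩
  · apply UpperHalfPlane.ext
    rw [coe_scal, coe_specialLinearGroup_apply, coe_specialLinearGroup_apply, coe_scal]
    have e00 : γ' 0 0 = γ 0 0 := rfl
    have e01 : γ' 0 1 = M * γ 0 1 := rfl
    have e10 : γ' 1 0 = c := rfl
    have e11 : γ' 1 1 = γ 1 1 := rfl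
    rw [e00, e01, e10, e11]
    have hM : (M : ℂ) ≠ 0 := Nat.cast_ne_zero.mpr (NeZero.ne M)
    have hden : ((algebraMap ℤ ℝ (γ 1 0) : ℝ) : ℂ) * (τ : ℂ) + ((algebraMap ℤ ℝ (γ 1 1) : ℝ) : ℂ) ≠ 0 := by
      have := denom_ne_zero γ τ
      simpa [denom] using this
    have e : ((algebraMap ℤ ℝ c : ℝ) : ℂ) * ((M : ℂ) * (τ : ℂ)) + ((algebraMap ℤ ℝ (γ 1 1) : ℝ) : ℂ) =
        ((algebraMap ℤ ℝ (γ 1 0) : ℝ) : ℂ) * (τ : ℂ) + ((algebraMap ℤ ℝ (γ 1 1) : ℝ) : ℂ) := by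
      rw [hc]
      push_cast
      simp
      ring
    rw [e, mul_div_assoc', div_left_inj' hden]
    push_cast
    simp
    ring

theorem holGfun_smul_of_mem (γ : SL(2, ℤ)) (hγ : γ ∈ Gamma0 (M ^ 2)) (a : Fin 2 → ZMod M) (τ : ℍ) :
    holGfun M a (γ • τ) =
      holGfun M ![((γ 0 0 : ℤ) : ZMod M) * a 0, ((γ 1 1 : ℤ) : ZMod M) * a 1] τ := by
  obtain ⟨γ', h00, h01, h10, h11, hγ'⟩ := exists_conjM M γ (Gamma0_sq_le M hγ)
  rw [holGfun_of_scal M a γ' τ (γ • τ) (hγ' τ)]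
  congr 1
  have hM : (M : ℤ) ≠ 0 := Nat.cast_ne_zero.mpr (NeZero.ne M)
  have h10' : ((γ' 1 0 : ℤ) : ZMod M) = 0 := by
    rw [Gamma0_mem, ZMod.intCast_zmod_eq_zero_iff_dvd] at hγ
    rw [ZMod.intCast_zmod_eq_zero_iff_dvd]
    obtain ⟨c, hc⟩ := hγ
    refine ⟨c, ?_⟩
    apply mul_left_cancel₀ hM
    rw [h10, hc]
    push_cast
    ring
  have h01' : ((γ' 0 1 : ℤ) : ZMod M) = 0 := by
    rw [h01]
    push_cast
    simp
  funext i
  fin_cases i
  · simp [actV, Matrix.vecMul, dotProduct, Fin.sum_univ_two, h10', h00, mul_comm]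
  · simp [actV, Matrix.vecMul, dotProduct, Fin.sum_univ_two, h01', h11, mul_comm]

omit [NeZero M] in
/-- `γ₀₀ γ₁₁ ≡ 1` mod `M` on `Γ₀(M)`. -/
theorem entry_mul_entry_of_mem (γ : SL(2, ℤ)) (hγ : γ ∈ Gamma0 M) :
    ((γ 0 0 : ℤ) : ZMod M) * ((γ 1 1 : ℤ) : ZMod M) = 1 := by
  rw [Gamma0_mem] at hγ
  have hdet : γ 0 0 * γ 1 1 - γ 0 1 * γ 1 0 = 1 := by
    have := γ.det_coe
    rwa [Matrix.det_fin_two] at this
  have h := congrArg (Int.cast : ℤ → ZMod M) hdet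
  push_cast at h
  rw [hγ, mul_zero, sub_zero] at h
  exact h

theorem holZfun_smul_of_mem (γ : SL(2, ℤ)) (hγ : γ ∈ Gamma0 (M ^ 2)) (a b : ZMod M) (τ : ℍ) :
    holZfun M a b (γ • τ) =
      holZfun M (((γ 0 0 : ℤ) : ZMod M) * a) (((γ 0 0 : ℤ) : ZMod M) * b) τ := by
  have hu := entry_mul_entry_of_mem M γ (Gamma0_sq_le M hγ)
  rw [holZfun_eq_sum, holZfun_eq_sum]
  congr 1
  let e : ZMod M ≃ ZMod M :=
    { toFun := fun x => ((γ 1 1 : ℤ) : ZMod M) * x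
      invFun := fun x => ((γ 0 0 : ℤ) : ZMod M) * x
      left_inv := fun x => by
        show ((γ 0 0 : ℤ) : ZMod M) * (((γ 1 1 : ℤ) : ZMod M) * x) = x
        rw [← mul_assoc, hu, one_mul]
      right_inv := fun x => by
        show ((γ 1 1 : ℤ) : ZMod M) * (((γ 0 0 : ℤ) : ZMod M) * x) = x
        rw [← mul_assoc, mul_comm ((γ 1 1 : ℤ) : ZMod M), hu, one_mul] }
  refine Fintype.sum_equiv e _ _ fun x => ?_
  rw [holGfun_smul_of_mem M γ hγ]
  have h1 : e x * (((γ 0 0 : ℤ) : ZMod M) * b) = x * b := by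
    show ((γ 1 1 : ℤ) : ZMod M) * x * (((γ 0 0 : ℤ) : ZMod M) * b) = x * b
    calc _ = (((γ 0 0 : ℤ) : ZMod M) * ((γ 1 1 : ℤ) : ZMod M)) * (x * b) := by ring
      _ = x * b := by rw [hu, one_mul]
  rw [h1]
  rfl

theorem holZfun_neg (a b : ZMod M) : holZfun M (-a) (-b) = holZfun M a b := by
  funext τ
  rw [holZfun_eq_sum, holZfun_eq_sum]
  congr 1
  refine Fintype.sum_equiv (Equiv.neg (ZMod M)) _ _ fun x => ?_
  have h1 : ![-a, x] = -![a, Equiv.neg (ZMod M) x] := by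
    funext i
    fin_cases i
    · rfl
    · simp
  rw [h1, holGfun_neg, Equiv.neg_apply, neg_mul, mul_neg]

/-- **the diamond action** on the generators -/
theorem actHol_holZ_of_mem (γ : SL(2, ℤ)) (hγ : γ ∈ Gamma0 (M ^ 2)) (a b : ZMod M) :
    actHol γ (holZ M a b) =
      holZ M (((γ 1 1 : ℤ) : ZMod M) * a) (((γ 1 1 : ℤ) : ZMod M) * b) := by
  apply Subtype.ext
  funext τ
  rw [actHol_apply, coe_holZ, coe_holZ, holZfun_smul_of_mem M γ⁻¹ (inv_mem hγ)]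
  have h : (γ⁻¹ : SL(2, ℤ)) 0 0 = γ 1 1 := by
    rw [Matrix.SpecialLinearGroup.SL2_inv_expl]
    rfl
  rw [h]

/-- invariance under `GY M` -/
theorem actHol_holZ_of_mem_GY (γ : SL(2, ℤ)) (hγ : γ ∈ GY M) (a b : ZMod M) :
    actHol γ (holZ M a b) = holZ M a b := by
  rw [actHol_holZ_of_mem M γ hγ.1]
  rcases hγ.2 with h | h
  · rw [h, one_mul, one_mul]
  · rw [h, neg_one_mul, neg_one_mul]
    apply Subtype.ext
    exact holZfun_neg M a b

theorem modGrowth_holGfun_smul (a : Fin 2 → ZMod M) (g : SL(2, ℤ)) :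
    ModGrowth (fun τ => holGfun M a (g • τ)) := by
  obtain ⟨γ', a', b', e', ha, he, hae, -, h⟩ := exists_hermite_smul M g
  have har : (0 : ℝ) < a' := by exact_mod_cast ha
  have her : (0 : ℝ) < e' := by exact_mod_cast he
  have hpos : (0 : ℝ) < (a' : ℝ) * e' := mul_pos har her
  refine ⟨M, ?_⟩
  set u : ℍ → ℍ := fun τ => upperTriangularGL a' b' e' hpos.ne' • τ with hu
  have htend : Filter.Tendsto u atImInfty atImInfty := tendsto_upperTriangularGL_smul hpos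
  have h0 : IsBoundedAtImInfty (fun _ : ℍ => (kap M)⁻¹ * (M : ℂ)) :=
    Filter.const_boundedAtFilter _ _
  have h1 : IsBoundedAtImInfty
      (fun τ : ℍ => (ModularForm.discriminant τ / Function.Periodic.qParam 1 (τ : ℂ)) ^ M) :=
    (discriminant_div_q_tendsto.pow M).isBigO_one ℝ
  have h2 : IsBoundedAtImInfty (fun τ : ℍ => Gf M (actV M a γ') (u τ)) :=
    (isBoundedAtImInfty_Gf M (actV M a γ')).comp_tendsto htend
  have h3' : IsBoundedAtImInfty (fun τ : ℍ => E₄ (u τ)) :=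
    isBoundedAtImInfty_E4.comp_tendsto htend
  have h3 : IsBoundedAtImInfty (fun τ : ℍ => E₄ (u τ) ^ 2) := by
    have := h3'.mul h3'
    refine this.congr' (Filter.Eventually.of_forall fun τ => ?_) Filter.EventuallyEq.rfl
    simp only [Pi.mul_apply]
    rw [sq]
  have h4 : IsBoundedAtImInfty (fun τ : ℍ =>
      (ModularForm.discriminant (u τ) / Function.Periodic.qParam 1 ((u τ : ℍ) : ℂ))⁻¹) :=
    (((discriminant_div_q_tendsto.inv₀ one_ne_zero)).comp htend).isBigO_one ℝ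
  have h5 : IsBoundedAtImInfty (fun τ : ℍ => Function.Periodic.qParam 1 (τ : ℂ) ^ M /
      Function.Periodic.qParam 1 ((u τ : ℍ) : ℂ)) := by
    refine Asymptotics.IsBigO.of_bound 1 (Filter.Eventually.of_forall fun τ => ?_)
    rw [norm_div, norm_pow, norm_qParam_coe, norm_qParam_coe, hu, im_upperTriangularGL_smul hpos,
      ← Real.exp_nat_mul, ← Real.exp_sub]
    simp only [Pi.one_apply, norm_one, mul_one]
    rw [Real.exp_le_one_iff]
    have hd : (M : ℝ) = a' * e' := by exact_mod_cast hae.symm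
    have he1 : (1 : ℝ) ≤ e' := by exact_mod_cast he
    have h4 : (a' : ℝ) / e' ≤ M := by
      rw [hd, div_le_iff₀ her]
      nlinarith [mul_le_mul_of_nonneg_left he1 har.le,
        mul_le_mul_of_nonneg_left he1 (mul_pos har her).le]
    have h5 := τ.im_pos
    have h6 := Real.pi_pos
    have h7 : 0 ≤ ((M : ℝ) - a' / e') * (Real.pi * τ.im) :=
      mul_nonneg (sub_nonneg.mpr h4) (mul_pos h6 h5).le
    nlinarith [h7]
  refine (((((h0.mul h1).mul h2).mul h3).mul h4).mul h5).congr'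
    (Filter.Eventually.of_forall fun τ => ?_) Filter.EventuallyEq.rfl
  have hq1 : Function.Periodic.qParam 1 (τ : ℂ) ≠ 0 := Function.Periodic.qParam_ne_zero _
  have hq2 : Function.Periodic.qParam 1 ((u τ : ℍ) : ℂ) ≠ 0 := Function.Periodic.qParam_ne_zero _
  have hΔ : ModularForm.discriminant (u τ) ≠ 0 := discriminant_ne_zero _
  have hsc : scal M (g • τ) = γ' • u τ := by
    rw [scal_eq_smul]
    exact h hpos.ne' τ
  have hden : denom γ' (u τ) ≠ 0 := denom_ne_zero _ _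
  have e : denom γ' (u τ) ^ (4 : ℤ) * denom γ' (u τ) ^ (-4 : ℤ) = 1 := by
    rw [← zpow_add₀ hden]
    norm_num
  have hG : holGfun M a (g • τ) = (kap M)⁻¹ * (M : ℂ) * Gf M (actV M a γ') (u τ) *
      (E₄ (u τ) ^ 2 / ModularForm.discriminant (u τ)) := by
    unfold holGfun
    rw [hsc, Gf_smul, facFun_smul]
    calc _ = (kap M)⁻¹ * (M : ℂ) * Gf M (actV M a γ') (u τ) * facFun (u τ) *
        (denom γ' (u τ) ^ (4 : ℤ) * denom γ' (u τ) ^ (-4 : ℤ)) := by ring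
      _ = _ := by rw [e, mul_one]; rfl
  simp only [Pi.mul_apply]
  rw [hG, div_pow]
  field_simp

/-- moderate growth of all translates -/
theorem modGrowth_actHol_holZ (a b : ZMod M) (g : SL(2, ℤ)) :
    ModGrowth (actHol g (holZ M a b) : ℍ → ℂ) := by
  have h1 : (actHol g (holZ M a b) : ℍ → ℂ) = (M : ℂ)⁻¹ • ∑ x : ZMod M,
      (zet M (-(x * b)) • fun τ => holGfun M ![a, x] (g⁻¹ • τ)) := by
    funext τ
    rw [actHol_apply, coe_holZ, holZfun_eq_sum]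
    simp [Finset.sum_apply]
  rw [h1]
  exact (ModGrowth.sum _ fun x _ => (modGrowth_holGfun_smul M _ g⁻¹).smul _).smul _

/-- `g` fixes `j(M² τ)` ⇒ `g ∈ Γ₀(M²)` (`S24.mem_Gamma0_of_comp_diag_eq`); then the diamond action
and `eq_or_eq_neg_of_holZ_eq`. -/
theorem mem_GY_of_fix (hM : 2 < M) (g : SL(2, ℤ))
    (h1 : actHol g (jdHol (M ^ 2)) = jdHol (M ^ 2))
    (h2 : actHol g (holZ M 1 1) = holZ M 1 1) : g ∈ GY M := by
  have hg' : g⁻¹ ∈ Gamma0 (M ^ 2) := by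
    apply mem_Gamma0_of_jd_smul_eq
    intro τ
    have h3 := congrFun (congrArg Subtype.val h1) τ
    rwa [actHol_apply] at h3
  have hg : g ∈ Gamma0 (M ^ 2) := by simpa using inv_mem hg'
  refine ⟨hg, ?_⟩
  rw [actHol_holZ_of_mem M g hg, mul_one] at h2
  exact eq_or_eq_neg_of_holZ_eq M hM _ h2

end

end Fermat.Agent.S48.ModL.Y
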