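import Fermat.Agent.S48.ModL.GY
import Fermat.Agent.GAL.EisChar

/-!
# S48 / MODL / Y : the Eisenstein family of level `M` (definitions only)

Analytic side (variable `z`, level `Γ(M)`):
* `Gf M a z = ∑_{v ≡ a (M)} (v₀ z + v₁)⁻⁴`, `a ∈ (ℤ/M)²`;  `Gf a ∣[4] γ = Gf (a γ)`.
* `Zf M a b = ∑_x ζ^{-x b} Gf (a, x) = ∑_{c ≡ a} ∑_d ζ^{-d b} (c z + d)⁻⁴`, `ζ = e(1/M)`.
  `Zf M a b z = kap M * ∑_n zCoeff M a b n * e(n z / M)` with RATIONAL `zCoeff`.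
Weight `0`, variable `τ` (`z = M τ`, `t = e(τ)`), group `GY M`:
* `holZfun M a b τ = (kap M)⁻¹ Zf a b (Mτ) (E₄²/Δ)(Mτ)`, `t`-expansion `genZ M a b ∈ ℚ((t))`.
* `holGfun M a τ = (kap M)⁻¹ M Gf a (Mτ) (E₄²/Δ)(Mτ) = ∑_b ζ^{a₁ b} holZfun a₀ b τ`.
-/

set_option autoImplicit false

open UpperHalfPlane hiding I
open Function ModularCurve CongruenceSubgroup ModularForm EisensteinSeries
open scoped Manifold MatrixGroups Real
open Fermat.Agent.S24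

namespace Fermat.Agent.S48.ModL.Y

noncomputable section

variable (M : ℕ)

/-- reduction of an integer vector mod `M` -/
def redV (v : Fin 2 → ℤ) : Fin 2 → ZMod M := fun i => ((v i : ℤ) : ZMod M)

/-- right action of `SL(2,ℤ)` on `(ℤ/M)²` (row vectors) -/
def actV (a : Fin 2 → ZMod M) (g : SL(2, ℤ)) : Fin 2 → ZMod M :=
  Matrix.vecMul a ((g : Matrix (Fin 2) (Fin 2) ℤ).map (Int.cast : ℤ → ZMod M))

open Classical in
/-- indicator of the class `a` -/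
def wtG (a : Fin 2 → ZMod M) (v : Fin 2 → ℤ) : ℂ := if redV M v = a then 1 else 0

/-- `G₄^a(z) = ∑_{v ≡ a} (v₀ z + v₁)⁻⁴`. -/
def Gf (a : Fin 2 → ZMod M) : ℍ → ℂ := GAL.EisChar.wsum (wtG M a) 4

variable [NeZero M]

/-- `ζ_M^x = e(x/M)`. -/
def zet (x : ZMod M) : ℂ := ZMod.stdAddChar x

/-- `Z_{(a,b)} = ∑_x ζ^{-x b} G^{(a,x)}`. -/
def Zf (a b : ZMod M) : ℍ → ℂ := fun z => ∑ x : ZMod M, zet M (-(x * b)) * Gf M ![a, x] z

/-- the normalising constant `(2πi)⁴ / (6 M³)`. -/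
def kap : ℂ := (2 * π * Complex.I) ^ 4 / (6 * (M : ℂ) ^ 3)

/-- the rational coefficients of `Z_{(a,b)}`. -/
def zCoeff (a b : ZMod M) (n : ℕ) : ℚ :=
  if n = 0 then
    (if a = 0 then -(((b.val : ℚ) * ((M : ℚ) - b.val)) ^ 2) / (4 * M) + (M : ℚ) ^ 3 / 120 else 0)
  else ∑ m ∈ n.divisors, (m : ℚ) ^ 3 *
    ((if ((n / m : ℕ) : ZMod M) = a ∧ ((m : ℕ) : ZMod M) = b then 1 else 0) +
      (if ((n / m : ℕ) : ZMod M) = -a ∧ ((m : ℕ) : ZMod M) = -b then 1 else 0))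

/-- the series `∑ zCoeff tⁿ`. -/
def zS (a b : ZMod M) : PowerSeries ℚ := PowerSeries.mk (zCoeff M a b)

omit [NeZero M] in
/-- `q E₄²/Δ` as an integral power series. -/
def facNum : PowerSeries ℤ := eisenstein4 ^ 2 * dedekindEtaUnitInv

/-- `E₄²/Δ ∈ ℚ((q))`. -/
def fac : LaurentSeries ℚ :=
  HahnSeries.single (-1 : ℤ) 1 * HahnSeries.ofPowerSeries ℤ ℚ (facNum.map (Int.castRingHom ℚ))

/-- the rational generators. -/
def genZ (a b : ZMod M) : LaurentSeries ℚ :=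
  HahnSeries.ofPowerSeries ℤ ℚ (zS M a b) * qExpand ℚ M fac

/-- `E₄²/Δ`. -/
def facFun (z : ℍ) : ℂ := E₄ z ^ 2 / discriminant z

/-- the analytic generators (weight `0`, invariant under `GY M`). -/
def holZfun (a b : ZMod M) (τ : ℍ) : ℂ :=
  (kap M)⁻¹ * Zf M a b (scal M τ) * facFun (scal M τ)

/-- the Igusa family (weight `0`, permuted by the conjugated `SL(2,ℤ)`). -/
def holGfun (a : Fin 2 → ZMod M) (τ : ℍ) : ℂ :=
  (kap M)⁻¹ * (M : ℂ) * Gf M a (scal M τ) * facFun (scal M τ)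

end

end Fermat.Agent.S48.ModL.Y
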