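import Fermat.Agent.S48.ModL.Y.Defs
import Fermat.Agent.S24.Conj
import Fermat.Agent.S24.QExp

/-!
# S48 / MODL / Y, WP [E1]: analytic basics of the Eisenstein family

Everything follows from the landed API of `GAL/EisChar.lean` (`wsum_slash`, `mdiff_wsum`,
`isBoundedAtImInfty_wsum`, `summable_term`).  `wsum_slash : wsum a k ∣[k] A = wsum (a ∘ (· ᵥ* A⁻¹)) k`
and `redV (v ᵥ* A⁻¹) = a ↔ redV v = actV a A`.
-/

set_option autoImplicit false

open UpperHalfPlane hiding I
open Function ModularCurve CongruenceSubgroup ModularForm EisensteinSeries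
open scoped Manifold MatrixGroups Real
open Fermat.Agent.S24

namespace Fermat.Agent.S48.ModL.Y

variable (M : ℕ)

theorem norm_wtG_le (a : Fin 2 → ZMod M) (v : Fin 2 → ℤ) : ‖wtG M a v‖ ≤ 1 := by
  unfold wtG
  split_ifs <;> simp

theorem actV_one (a : Fin 2 → ZMod M) : actV M a 1 = a := by
  unfold actV
  rw [Matrix.SpecialLinearGroup.coe_one, Matrix.map_one _ Int.cast_zero Int.cast_one,
    Matrix.vecMul_one]

theorem actV_mul (a : Fin 2 → ZMod M) (g g' : SL(2, ℤ)) :
    actV M a (g * g') = actV M (actV M a g) g' := by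
  unfold actV
  rw [Matrix.SpecialLinearGroup.coe_mul, Matrix.vecMul_vecMul]
  congr 1
  exact Matrix.map_mul (f := Int.castRingHom (ZMod M))

theorem actV_neg (a : Fin 2 → ZMod M) (g : SL(2, ℤ)) : actV M (-a) g = -actV M a g := by
  unfold actV
  rw [Matrix.neg_vecMul]

theorem redV_vecMul (v : Fin 2 → ℤ) (g : SL(2, ℤ)) :
    redV M (Matrix.vecMul v (g : Matrix (Fin 2) (Fin 2) ℤ)) = actV M (redV M v) g := by
  funext i
  simp [redV, actV, Matrix.vecMul, dotProduct]

theorem mdiff_Gf (a : Fin 2 → ZMod M) : MDiff (Gf M a) :=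
  GAL.EisChar.mdiff_wsum (norm_wtG_le M a) (by norm_num)

theorem wtG_vecEquiv_symm (a : Fin 2 → ZMod M) (g : SL(2, ℤ)) (v : Fin 2 → ℤ) :
    wtG M a ((GAL.EisChar.vecEquiv g).symm v) = wtG M (actV M a g) v := by
  classical
  unfold wtG
  rw [GAL.EisChar.vecEquiv_symm_apply, redV_vecMul]
  have : actV M (redV M v) g⁻¹ = a ↔ redV M v = actV M a g := by
    constructor
    · rintro rfl
      rw [← actV_mul, inv_mul_cancel, actV_one]
    · intro h
      rw [h, ← actV_mul, mul_inv_cancel, actV_one]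
  simp only [this]

/-- the fundamental transformation law -/
theorem Gf_slash (a : Fin 2 → ZMod M) (g : SL(2, ℤ)) :
    Gf M a ∣[(4 : ℤ)] g = Gf M (actV M a g) := by
  unfold Gf
  rw [GAL.EisChar.wsum_slash]
  congr 1
  funext v
  exact wtG_vecEquiv_symm M a g v

theorem Gf_smul (a : Fin 2 → ZMod M) (g : SL(2, ℤ)) (z : ℍ) :
    Gf M a (g • z) = denom g z ^ (4 : ℤ) * Gf M (actV M a g) z := by
  unfold Gf
  rw [GAL.EisChar.wsum_smul]
  congr 2
  funext v
  exact wtG_vecEquiv_symm M a g v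

theorem isBoundedAtImInfty_Gf (a : Fin 2 → ZMod M) : IsBoundedAtImInfty (Gf M a) :=
  GAL.EisChar.isBoundedAtImInfty_wsum (norm_wtG_le M a) (by norm_num)

theorem Gf_neg (a : Fin 2 → ZMod M) : Gf M (-a) = Gf M a := by
  classical
  funext z
  unfold Gf GAL.EisChar.wsum
  rw [← (Equiv.neg (Fin 2 → ℤ)).tsum_eq]
  refine tsum_congr fun v => ?_
  have h1 : wtG M (-a) (Equiv.neg (Fin 2 → ℤ) v) = wtG M a v := by
    unfold wtG
    have : redV M (Equiv.neg (Fin 2 → ℤ) v) = -a ↔ redV M v = a := by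
      have e : redV M (Equiv.neg (Fin 2 → ℤ) v) = -redV M v := by
        funext i
        simp [redV]
      rw [e, neg_inj]
    simp only [this]
  have h2 : eisSummand 4 (Equiv.neg (Fin 2 → ℤ) v) z = eisSummand 4 v z := by
    simp only [eisSummand, Equiv.neg_apply, Pi.neg_apply, Int.cast_neg]
    have : -((v 0 : ℤ) : ℂ) * (z : ℂ) + -((v 1 : ℤ) : ℂ) = -(((v 0 : ℤ) : ℂ) * (z : ℂ) + (v 1 : ℤ)) := by
      ring
    rw [this, Even.neg_zpow (by decide : Even (-4 : ℤ))]
  rw [h1, h2]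

variable [NeZero M]

theorem zet_add (x y : ZMod M) : zet M (x + y) = zet M x * zet M y :=
  AddChar.map_add_eq_mul _ x y

theorem zet_zero : zet M 0 = 1 := AddChar.map_zero_eq_one _

theorem zet_injective : Function.Injective (zet M) := ZMod.injective_stdAddChar

theorem zet_pow_eq_one (x : ZMod M) : zet M x ^ M = 1 := by
  unfold zet
  rw [← AddChar.map_nsmul_eq_pow, nsmul_eq_mul, ZMod.natCast_self, zero_mul,
    AddChar.map_zero_eq_one]

theorem isPrimitiveRoot_zet_one : IsPrimitiveRoot (zet M 1) M := by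
  unfold zet
  have h := ZMod.stdAddChar_coe (N := M) 1
  rw [Int.cast_one] at h
  rw [h]
  have := Complex.isPrimitiveRoot_exp M (NeZero.ne M)
  convert this using 2
  push_cast
  ring

/-- orthogonality -/
theorem sum_zet_mul (x : ZMod M) : ∑ b : ZMod M, zet M (x * b) = if x = 0 then (M : ℂ) else 0 := by
  have h := AddChar.sum_mulShift (R := ZMod M) x (ZMod.isPrimitive_stdAddChar M)
  unfold zet
  rw [ZMod.card] at h
  simp_rw [mul_comm x]
  rw [h]
  split_ifs <;> simp

theorem mdiff_Zf (a b : ZMod M) : MDiff (Zf M a b) := by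
  unfold Zf
  have : (fun z => ∑ x : ZMod M, zet M (-(x * b)) * Gf M ![a, x] z) =
      ∑ x : ZMod M, (fun z => zet M (-(x * b)) * Gf M ![a, x] z) := by
    funext z
    rw [Finset.sum_apply]
  rw [this]
  exact MDifferentiable.sum fun x _ => mdifferentiable_const.mul (mdiff_Gf M _)

theorem isBoundedAtImInfty_Zf (a b : ZMod M) : IsBoundedAtImInfty (Zf M a b) := by
  unfold Zf
  have : (fun z => ∑ x : ZMod M, zet M (-(x * b)) * Gf M ![a, x] z) =
      ∑ x : ZMod M, (fun z => zet M (-(x * b)) * Gf M ![a, x] z) := by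
    funext z
    rw [Finset.sum_apply]
  rw [this]
  refine Finset.sum_induction _ IsBoundedAtImInfty (fun f g hf hg => hf.add hg)
    (Filter.const_boundedAtFilter _ 0) fun x _ => ?_
  exact (Filter.const_boundedAtFilter _ (zet M (-(x * b)))).mul (isBoundedAtImInfty_Gf M _)

/-- Fourier inversion: `∑_b ζ^{x b} Z_{(a,b)} = M G^{(a,x)}`. -/
theorem sum_zet_mul_Zf (a x : ZMod M) (z : ℍ) :
    ∑ b : ZMod M, zet M (x * b) * Zf M a b z = (M : ℂ) * Gf M ![a, x] z := by
  unfold Zf
  simp_rw [Finset.mul_sum]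
  rw [Finset.sum_comm]
  have h : ∀ y : ZMod M, ∑ b : ZMod M, zet M (x * b) * (zet M (-(y * b)) * Gf M ![a, y] z) =
      (if x - y = 0 then (M : ℂ) else 0) * Gf M ![a, y] z := by
    intro y
    rw [← sum_zet_mul, Finset.sum_mul]
    refine Finset.sum_congr rfl fun b _ => ?_
    rw [← mul_assoc, ← zet_add]
    congr 2
    ring
  simp_rw [h]
  rw [Finset.sum_eq_single x]
  · simp
  · intro y _ hy
    rw [if_neg (sub_ne_zero.mpr (Ne.symm hy)), zero_mul]
  · intro h
    exact absurd (Finset.mem_univ x) h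

/-- `Z_{(a,b)}` as a weighted sum: `∑_{c ≡ a} ∑_d ζ^{-d b} (c z + d)⁻⁴`. -/
theorem Zf_eq_wsum (a b : ZMod M) :
    Zf M a b = GAL.EisChar.wsum
      (fun v => if ((v 0 : ℤ) : ZMod M) = a then zet M (-(((v 1 : ℤ) : ZMod M) * b)) else 0) 4 := by
  classical
  funext z
  unfold Zf Gf GAL.EisChar.wsum
  simp_rw [← tsum_mul_left]
  rw [← Summable.tsum_finsetSum]
  · refine tsum_congr fun v => ?_
    simp_rw [← mul_assoc]
    rw [← Finset.sum_mul]
    congr 1
    rw [Finset.sum_eq_single (((v 1 : ℤ) : ZMod M))]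
    · unfold wtG
      have : redV M v = ![a, ((v 1 : ℤ) : ZMod M)] ↔ ((v 0 : ℤ) : ZMod M) = a := by
        constructor
        · intro h
          exact congrFun h 0
        · intro h
          funext i
          fin_cases i
          · exact h
          · rfl
      simp only [this]
      split_ifs <;> simp
    · intro x _ hx
      unfold wtG
      rw [if_neg, mul_zero]
      intro h
      exact hx (congrFun h 1).symm
    · intro h
      exact absurd (Finset.mem_univ _) h
  · intro x _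
    exact (GAL.EisChar.summable_term (norm_wtG_le M _) (by norm_num) z).mul_left _

theorem kap_ne_zero : kap M ≠ 0 := by
  unfold kap
  have hM : (M : ℂ) ≠ 0 := Nat.cast_ne_zero.mpr (NeZero.ne M)
  have hpi : (π : ℂ) ≠ 0 := Complex.ofReal_ne_zero.mpr Real.pi_ne_zero
  refine div_ne_zero (pow_ne_zero _ ?_) (mul_ne_zero (by norm_num) (pow_ne_zero _ hM))
  exact mul_ne_zero (mul_ne_zero two_ne_zero hpi) Complex.I_ne_zero

/-- `∑_b ζ^{a₁ b} holZ (a₀, b) = holG a`. -/
theorem sum_zet_mul_holZfun (a : Fin 2 → ZMod M) (τ : ℍ) :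
    ∑ b : ZMod M, zet M (a 1 * b) * holZfun M (a 0) b τ = holGfun M a τ := by
  unfold holZfun holGfun
  have h := sum_zet_mul_Zf M (a 0) (a 1) (scal M τ)
  have ha : ![a 0, a 1] = a := by
    funext i
    fin_cases i <;> rfl
  rw [ha] at h
  calc ∑ b : ZMod M, zet M (a 1 * b) * ((kap M)⁻¹ * Zf M (a 0) b (scal M τ) * facFun (scal M τ))
      = (kap M)⁻¹ * (∑ b : ZMod M, zet M (a 1 * b) * Zf M (a 0) b (scal M τ)) *
          facFun (scal M τ) := by
        rw [Finset.mul_sum, Finset.sum_mul]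
        refine Finset.sum_congr rfl fun b _ => ?_
        ring
    _ = _ := by rw [h]; ring

/-- `holZ (a, b) = M⁻¹ ∑_x ζ^{-x b} holG (a, x)`. -/
theorem holZfun_eq_sum (a b : ZMod M) (τ : ℍ) :
    holZfun M a b τ = (M : ℂ)⁻¹ * ∑ x : ZMod M, zet M (-(x * b)) * holGfun M ![a, x] τ := by
  have hM : (M : ℂ) ≠ 0 := Nat.cast_ne_zero.mpr (NeZero.ne M)
  unfold holZfun holGfun Zf
  rw [Finset.mul_sum, Finset.mul_sum, Finset.sum_mul]
  refine Finset.sum_congr rfl fun x _ => ?_
  field_simp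

theorem facFun_smul (g : SL(2, ℤ)) (z : ℍ) :
    facFun (g • z) = denom g z ^ (-4 : ℤ) * facFun z := by
  have h4 : (⇑E₄ ∣[(4 : ℤ)] g) z = E₄ z := congrFun (Fermat.Agent.Common.E4_slash g) z
  have h12 : (ModularForm.discriminant ∣[(12 : ℤ)] g) z = ModularForm.discriminant z :=
    congrFun (discriminant_slash g) z
  rw [ModularForm.SL_slash_apply] at h4 h12
  have hden : denom g z ≠ 0 := denom_ne_zero _ z
  have hΔ : discriminant (g • z) ≠ 0 := discriminant_ne_zero _
  unfold facFun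
  rw [← h4, ← h12]
  generalize denom g z = x at *
  have e : (x ^ (-4 : ℤ)) ^ 2 = x ^ (-4 : ℤ) * x ^ (-4 : ℤ) := sq _
  have e' : x ^ (-12 : ℤ) = x ^ (-4 : ℤ) * x ^ (-4 : ℤ) * x ^ (-4 : ℤ) := by
    rw [← zpow_add₀ hden, ← zpow_add₀ hden]
    norm_num
  have hx : x ^ (-4 : ℤ) ≠ 0 := zpow_ne_zero _ hden
  rw [mul_pow, e, e']
  field_simp

/-- **the conjugated action**: if `M τ' = g (M τ)` then `holG a τ' = holG (a g) τ`. -/
theorem holGfun_of_scal (a : Fin 2 → ZMod M) (g : SL(2, ℤ)) (τ τ' : ℍ)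
    (h : scal M τ' = g • scal M τ) : holGfun M a τ' = holGfun M (actV M a g) τ := by
  unfold holGfun
  rw [h, Gf_smul, facFun_smul]
  have hden : denom g (scal M τ) ≠ 0 := denom_ne_zero _ _
  have e : denom g (scal M τ) ^ (4 : ℤ) * denom g (scal M τ) ^ (-4 : ℤ) = 1 := by
    rw [← zpow_add₀ hden]
    norm_num
  calc _ = (kap M)⁻¹ * (M : ℂ) * Gf M (actV M a g) (scal M τ) * facFun (scal M τ) *
        (denom g (scal M τ) ^ (4 : ℤ) * denom g (scal M τ) ^ (-4 : ℤ)) := by ring
    _ = _ := by rw [e, mul_one]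

theorem holGfun_neg (a : Fin 2 → ZMod M) : holGfun M (-a) = holGfun M a := by
  funext τ
  unfold holGfun
  rw [Gf_neg]

theorem mdiff_facFun : MDiff facFun :=
  (E₄.holo'.pow 2).div mdiff_discriminant discriminant_ne_zero

theorem mdiff_holGfun (a : Fin 2 → ZMod M) : MDiff (holGfun M a) := by
  have h1 : MDiff (Gf M a ∘ scal M) := mdiff_comp_scal M (mdiff_Gf M a)
  have h2 : MDiff (facFun ∘ scal M) := mdiff_comp_scal M mdiff_facFun
  exact ((mdifferentiable_const (c := (kap M)⁻¹ * (M : ℂ))).mul h1).mul h2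

theorem mdiff_holZfun (a b : ZMod M) : MDiff (holZfun M a b) := by
  have h1 : MDiff (Zf M a b ∘ scal M) := mdiff_comp_scal M (mdiff_Zf M a b)
  have h2 : MDiff (facFun ∘ scal M) := mdiff_comp_scal M mdiff_facFun
  exact ((mdifferentiable_const (c := (kap M)⁻¹)).mul h1).mul h2

end Fermat.Agent.S48.ModL.Y
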