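import Fermat.Agent.S48.ModL.Y.EisAn

/-!
# S48 / MODL / Y, WP [E2]: the `q`-expansion of `Z_{(a,b)}`

Model: `S48/Forms/Eis3.lean` (`wsum_eq`, `hasSum_wsum`).  With `Zf_eq_wsum`:
`Z = ∑_{c ≡ a} ∑_d ζ^{-d b} (c z + d)⁻⁴`.
* `c > 0`: split `d = r + M m` (`r` mod `M`):
  `∑_m (c z + r + M m)⁻⁴ = M⁻⁴ ∑_m ((c z + r)/M + m)⁻⁴ = M⁻⁴ (2πi)⁴/3! ∑_{n ≥ 1} n³ e(n (c z + r)/M)`
  (Mathlib `EisensteinSeries.qExpansion_identity_pnat` at the point `(c z + r)/M ∈ ℍ`);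
  `∑_r ζ^{-r b} ζ^{r n} = M [n ≡ b]`.  Total `kap M * ∑_{n ≡ b} n³ e(n c z / M)`.
* `c < 0`: `(c z + d)⁻⁴ = (-c z - d)⁻⁴`, `d ↦ -d`: `kap M * ∑_{n ≡ -b} n³ e(n (-c) z / M)`, `-c ≡ -a`.
* `c = 0` (only if `a = 0`): `∑_{d ≠ 0} ζ^{-d b} d⁻⁴ = 2 ∑_{d ≥ 1} cos (2π d x) / d⁴`, `x = b.val / M ∈ [0,1)`,
  `= -(2π)⁴/24 * B₄(x)` (Mathlib `hasSum_one_div_nat_pow_mul_cos`, `k = 2`),
  `B₄(x) = x⁴ - 2x³ + x² - 1/30 = x²(x-1)² - 1/30`; dividing by `kap M = (2π)⁴/(6M³)` gives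
  `-(M³/4) B₄(b/M) = -(b (M-b))²/(4M) + M³/120`.
It may be convenient to first expand `Gf M ![a, x]` (coefficients `ζ^{x n}`), then sum.
-/

set_option autoImplicit false

open UpperHalfPlane hiding I
open Function ModularCurve CongruenceSubgroup ModularForm EisensteinSeries
open scoped Manifold MatrixGroups Real
open Fermat.Agent.S24

namespace Fermat.Agent.S48.ModL.Y

variable (M : ℕ) [NeZero M]

namespace EisQ

open Complex Real Matrix Filter Topology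
open Fermat.Agent.GAL.EisChar

noncomputable section

/-- the standard additive character `x ↦ e(x/M)` -/
abbrev ee : AddChar (ZMod M) ℂ := ZMod.stdAddChar

lemma norm_ee (x : ZMod M) : ‖ee M x‖ = 1 := by
  rw [ee, ZMod.stdAddChar_apply]; exact Circle.norm_coe _

lemma summable_inv_pow4 (w : ℂ) : Summable fun d : ℤ => ((w + d) ^ 4)⁻¹ := by
  have := linear_right_summable w 1 (k := 4) (by norm_num)
  refine this.congr fun d => ?_
  simp only [Int.cast_one, one_mul]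
  norm_cast

/-- sum over a residue class -/
lemma tsum_class (w : ℍ) (r : ZMod M) :
    ∑' d : ℤ, (if (d : ZMod M) = r then (((w : ℂ) + d) ^ 4)⁻¹ else 0) =
      ((2 * π) ^ 4 / (6 * (M : ℂ) ^ 4)) *
        ∑' m : ℕ+, ((m : ℕ) : ℂ) ^ 3 * (ee M (r * ((m : ℕ) : ZMod M)) * cexp (2 * π * I * w / M) ^ (m : ℕ)) := by
  have hM : (M : ℂ) ≠ 0 := Nat.cast_ne_zero.mpr (NeZero.ne M)
  have hMpos : (0 : ℝ) < M := Nat.cast_pos.mpr (Nat.pos_of_ne_zero (NeZero.ne M))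
  have hinj : Function.Injective fun q : ℤ => (r.val : ℤ) + M * q := by
    intro q q' h
    have : (M : ℤ) * q = M * q' := by simpa using h
    exact mul_left_cancel₀ (Nat.cast_ne_zero.mpr (NeZero.ne M)) this
  rw [← hinj.tsum_eq]
  swap
  · intro d hd
    have hd' : (d : ZMod M) = r := by
      by_contra h
      simp [h] at hd
    have : ((d - r.val : ℤ) : ZMod M) = 0 := by
      push_cast
      rw [hd', ZMod.natCast_zmod_val, sub_self]
    rw [ZMod.intCast_zmod_eq_zero_iff_dvd] at this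
    obtain ⟨q, hq⟩ := this
    exact ⟨q, by simp only; omega⟩
  let w' : ℍ := ⟨((w : ℂ) + r.val) / M, by
    have : (((w : ℂ) + r.val) / M).im = w.im / M := by
      rw [← ofReal_natCast M, Complex.div_ofReal_im, Complex.add_im, Complex.natCast_im, add_zero]
      rfl
    rw [this]; exact div_pos w.im_pos hMpos⟩
  have H := qExpansion_identity_pnat (k := 3) (by norm_num) w'
  have h1 : ∀ q : ℤ, (if ((((r.val : ℤ) + M * q : ℤ)) : ZMod M) = r then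
      (((w : ℂ) + (((r.val : ℤ) + M * q : ℤ))) ^ 4)⁻¹ else 0) =
      ((M : ℂ) ^ 4)⁻¹ * (1 / ((w' : ℂ) + q) ^ (3 + 1)) := by
    intro q
    rw [if_pos (by simp)]
    show _ = ((M : ℂ) ^ 4)⁻¹ * (1 / (((w : ℂ) + r.val) / M + q) ^ (3 + 1))
    push_cast
    field_simp
    ring_nf
  rw [tsum_congr h1, tsum_mul_left, H]
  have h2 : ∀ m : ℕ+, ((m : ℕ) : ℂ) ^ 3 * cexp (2 * π * I * (w' : ℂ)) ^ (m : ℕ) =
      ((m : ℕ) : ℂ) ^ 3 * (ee M (r * ((m : ℕ) : ZMod M)) * cexp (2 * π * I * w / M) ^ (m : ℕ)) := by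
    intro m
    congr 1
    have : r * ((m : ℕ) : ZMod M) = (((r.val * (m : ℕ) : ℕ) : ℤ) : ZMod M) := by
      push_cast; rw [ZMod.natCast_zmod_val]
    rw [this, ee, ZMod.stdAddChar_coe, ← Complex.exp_nat_mul, ← Complex.exp_nat_mul, ← Complex.exp_add]
    congr 1
    show (m : ℕ) * (2 * π * I * (((w : ℂ) + r.val) / M)) = _
    push_cast
    field_simp
    ring
  rw [tsum_congr h2]
  have hI : (-2 * (π : ℂ) * I) ^ (3 + 1) = (2 * π) ^ 4 := by
    have : (I : ℂ) ^ 4 = 1 := by rw [show (4 : ℕ) = 2 * 2 by norm_num, pow_mul, I_sq]; norm_num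
    calc (-2 * (π : ℂ) * I) ^ (3 + 1) = (2 * π) ^ 4 * I ^ 4 := by ring
      _ = _ := by rw [this, mul_one]
  rw [hI, ← mul_assoc]
  congr 1
  simp only [Nat.factorial]
  push_cast
  field_simp

lemma norm_tq_lt_one (w : ℍ) : ‖cexp (2 * π * I * w / M)‖ < 1 := by
  have hMpos : (0 : ℝ) < M := Nat.cast_pos.mpr (Nat.pos_of_ne_zero (NeZero.ne M))
  have := Function.Periodic.norm_qParam_lt_one hMpos w.im_pos
  simpa [Function.Periodic.qParam] using this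

lemma summable_pnat_bdd {t : ℂ} (ht : ‖t‖ < 1) (φ : ℕ+ → ℂ) (hφ : ∀ m, ‖φ m‖ ≤ 1) :
    Summable fun m : ℕ+ => ((m : ℕ) : ℂ) ^ 3 * (φ m * t ^ (m : ℕ)) := by
  have h0 := (summable_norm_pow_mul_geometric_of_norm_lt_one 3 ht).comp_injective
    PNat.coe_injective
  refine Summable.of_norm_bounded h0 fun m => ?_
  simp only [Function.comp, norm_mul, norm_pow]
  gcongr
  exact mul_le_of_le_one_left (by positivity) (hφ m)

/-- Lipschitz formula twisted by an additive character. -/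
lemma tsum_char (w : ℍ) (b : ZMod M) :
    ∑' d : ℤ, ee M (-(b * (d : ZMod M))) * (((w : ℂ) + d) ^ 4)⁻¹ =
      ((2 * π) ^ 4 / (6 * (M : ℂ) ^ 3)) *
        ∑' m : ℕ+, ((m : ℕ) : ℂ) ^ 3 * ((if ((m : ℕ) : ZMod M) = b then 1 else 0) *
          cexp (2 * π * I * w / M) ^ (m : ℕ)) := by
  have hM : (M : ℂ) ≠ 0 := Nat.cast_ne_zero.mpr (NeZero.ne M)
  have ht := norm_tq_lt_one M w
  set t := cexp (2 * π * I * w / M) with htdef
  have h1 : ∀ d : ℤ, ee M (-(b * (d : ZMod M))) * (((w : ℂ) + d) ^ 4)⁻¹ =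
      ∑ r : ZMod M, ee M (-(b * r)) * (if (d : ZMod M) = r then (((w : ℂ) + d) ^ 4)⁻¹ else 0) := by
    intro d
    simp only [mul_ite, mul_zero]
    rw [Finset.sum_ite_eq]
    simp
  rw [tsum_congr h1, Summable.tsum_finsetSum]
  swap
  · intro r _
    refine Summable.mul_left _ ?_
    refine Summable.of_norm_bounded (summable_inv_pow4 (w : ℂ)).norm fun d => ?_
    split_ifs
    · exact le_rfl
    · simp
  simp_rw [tsum_mul_left, tsum_class M w]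
  have h2 : ∀ r : ZMod M, ee M (-(b * r)) * ((2 * π) ^ 4 / (6 * (M : ℂ) ^ 4) *
      ∑' m : ℕ+, ((m : ℕ) : ℂ) ^ 3 * (ee M (r * ((m : ℕ) : ZMod M)) * t ^ (m : ℕ))) =
      (2 * π) ^ 4 / (6 * (M : ℂ) ^ 4) *
      ∑' m : ℕ+, ((m : ℕ) : ℂ) ^ 3 * (ee M (r * (((m : ℕ) : ZMod M) - b)) * t ^ (m : ℕ)) := by
    intro r
    rw [mul_left_comm, ← tsum_mul_left]
    congr 1
    refine tsum_congr fun m => ?_
    rw [show r * (((m : ℕ) : ZMod M) - b) = -(b * r) + r * ((m : ℕ) : ZMod M) by ring,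
      AddChar.map_add_eq_mul]
    ring
  rw [Finset.sum_congr rfl fun r _ => h2 r, ← Finset.mul_sum, ← Summable.tsum_finsetSum]
  swap
  · intro r _
    exact summable_pnat_bdd ht _ fun m => (norm_ee M _).le
  have h3 : ∀ m : ℕ+, ∑ r : ZMod M, ((m : ℕ) : ℂ) ^ 3 *
      (ee M (r * (((m : ℕ) : ZMod M) - b)) * t ^ (m : ℕ)) =
      (M : ℂ) * (((m : ℕ) : ℂ) ^ 3 * ((if ((m : ℕ) : ZMod M) = b then 1 else 0) * t ^ (m : ℕ))) := by
    intro m
    rw [← Finset.mul_sum, ← Finset.sum_mul, AddChar.sum_mulShift _ (ZMod.isPrimitive_stdAddChar M),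
      ZMod.card]
    simp only [sub_eq_zero]
    split_ifs <;> ring
  rw [tsum_congr h3, tsum_mul_left, ← mul_assoc]
  congr 1
  field_simp

lemma bernoulliFun_four (x : ℝ) : bernoulliFun 4 x = x ^ 4 - 2 * x ^ 3 + x ^ 2 - 1 / 30 := by
  have h4 : bernoulli 4 = -1/30 := by
    rw [bernoulli_eq_bernoulli'_of_ne_one (by norm_num), bernoulli'_four]
  have h3 : bernoulli 3 = 0 := by
    rw [bernoulli_eq_bernoulli'_of_ne_one (by norm_num), bernoulli'_three]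
  simp only [bernoulliFun, Polynomial.bernoulli, Finset.sum_range_succ, Finset.sum_range_zero,
    Polynomial.map_add, Polynomial.eval_add, Polynomial.map_monomial, Polynomial.eval_monomial,
    bernoulli_zero, bernoulli_one, bernoulli_two, h3, h4]
  norm_num [Nat.choose]
  ring

/-- The polynomial `P(x) = -(M³/4) B₄(x/M)`. -/
def cstPoly (x : ℚ) : ℚ :=
  -((M : ℚ) ^ 3 / 4) * ((x / M) ^ 4 - 2 * (x / M) ^ 3 + (x / M) ^ 2 - 1 / 30)

/-- The rational constant term `-(M³/4) B₄(b/M)`, `0 ≤ b < M`. -/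
def cst (b : ZMod M) : ℚ := cstPoly M (b.val : ℚ)

lemma tsum_const (b : ZMod M) :
    ∑' d : ℤ, ee M (-(b * (d : ZMod M))) * ((d : ℂ) ^ 4)⁻¹ =
      ((2 * π) ^ 4 / (6 * (M : ℂ) ^ 3)) * (cst M b : ℂ) := by
  have hM : (M : ℂ) ≠ 0 := Nat.cast_ne_zero.mpr (NeZero.ne M)
  have hMpos : (0 : ℝ) < M := Nat.cast_pos.mpr (Nat.pos_of_ne_zero (NeZero.ne M))
  have hx : ((b.val : ℝ) / M) ∈ Set.Icc (0 : ℝ) 1 := by
    refine ⟨by positivity, ?_⟩
    rw [div_le_one hMpos]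
    exact_mod_cast (ZMod.val_lt b).le
  have H := (hasSum_one_div_pow_mul_fourier_mul_bernoulliFun (k := 4) (by norm_num) hx).tsum_eq
  rw [← (Equiv.neg ℤ).tsum_eq]
  have h1 : ∀ d : ℤ, ee M (-(b * (((Equiv.neg ℤ) d : ℤ) : ZMod M))) *
      ((((Equiv.neg ℤ) d : ℤ) : ℂ) ^ 4)⁻¹ =
      1 / (d : ℂ) ^ 4 * fourier d (((b.val : ℝ) / M : ℝ) : UnitAddCircle) := by
    intro d
    rw [fourier_coe_apply]
    have : -(b * (((Equiv.neg ℤ) d : ℤ) : ZMod M)) = (((b.val : ℤ) * d : ℤ) : ZMod M) := by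
      simp
    rw [this, ee, ZMod.stdAddChar_coe]
    simp only [Equiv.neg_apply, Int.cast_neg, one_div]
    rw [show (-(d : ℂ)) ^ 4 = (d : ℂ) ^ 4 by ring, mul_comm]
    congr 2
    push_cast
    field_simp
  rw [tsum_congr h1, H, bernoulliFun_four, cst, cstPoly]
  have hI : (2 * (π : ℂ) * I) ^ 4 = (2 * π) ^ 4 := by
    have : (I : ℂ) ^ 4 = 1 := by rw [show (4 : ℕ) = 2 * 2 by norm_num, pow_mul, I_sq]; norm_num
    calc (2 * (π : ℂ) * I) ^ 4 = (2 * π) ^ 4 * I ^ 4 := by ring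
      _ = _ := by rw [this, mul_one]
  rw [hI]
  simp only [Nat.factorial]
  push_cast
  field_simp
  ring

/-! ### double sums -/

lemma summable_phi_prod (φ : ℕ → ℕ → ℂ) (hφ : ∀ c m, ‖φ c m‖ ≤ 1) {r : ℂ} (hr : ‖r‖ < 1) :
    Summable fun c : ℕ+ × ℕ+ ↦ φ c.1 c.2 * ((c.2 : ℂ) ^ 3 * r ^ (c.1 * c.2 : ℕ)) := by
  refine Summable.of_norm_bounded (summable_prod_mul_pow (𝕜 := ℂ) 3 hr).norm fun c => ?_
  rw [norm_mul]
  exact mul_le_of_le_one_left (norm_nonneg _) (hφ _ _)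

/-- divisor sum coefficients -/
def dco (φ : ℕ → ℕ → ℂ) (n : ℕ) : ℂ := ∑ m ∈ n.divisors, φ (n / m) m * (m : ℂ) ^ 3

lemma tsum_phi_prod (φ : ℕ → ℕ → ℂ) (hφ : ∀ c m, ‖φ c m‖ ≤ 1) {r : ℂ} (hr : ‖r‖ < 1) :
    ∑' d : ℕ+, ∑' c : ℕ+, φ d c * ((c : ℂ) ^ 3 * r ^ (d * c : ℕ)) =
      ∑' e : ℕ+, dco φ e * r ^ (e : ℕ) := by
  rw [← (summable_phi_prod φ hφ hr).tsum_prod (f := fun c : ℕ+ × ℕ+ ↦
    φ c.1 c.2 * ((c.2 : ℂ) ^ 3 * r ^ (c.1 * c.2 : ℕ)))]
  rw [← sigmaAntidiagonalEquivProd.tsum_eq]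
  have hs := sigmaAntidiagonalEquivProd.summable_iff.mpr (summable_phi_prod φ hφ hr)
  simp only [Function.comp_def] at hs
  rw [Summable.tsum_sigma hs]
  refine tsum_congr fun n ↦ ?_
  rw [tsum_fintype, dco, Finset.sum_mul]
  simp only [sigmaAntidiagonalEquivProd, divisorsAntidiagonalFactors, PNat.mk_coe, Equiv.coe_fn_mk,
    Finset.univ_eq_attach]
  rw [(n : ℕ).divisorsAntidiagonal.sum_attach fun x : ℕ × ℕ ↦
    φ x.1 x.2 * ((x.2 : ℂ) ^ 3 * r ^ (x.1 * x.2))]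
  rw [Nat.sum_divisorsAntidiagonal' fun x y ↦ φ x y * ((y : ℂ) ^ 3 * r ^ (x * y))]
  refine Finset.sum_congr rfl fun i hi ↦ ?_
  rw [Nat.div_mul_cancel (Nat.dvd_of_mem_divisors hi), mul_assoc]

lemma norm_dco_le (φ : ℕ → ℕ → ℂ) (hφ : ∀ c m, ‖φ c m‖ ≤ 1) (n : ℕ) :
    ‖dco φ n‖ ≤ (n : ℝ) ^ 4 := by
  unfold dco
  refine (norm_sum_le _ _).trans ?_
  have h1 : ∀ m ∈ n.divisors, ‖φ (n / m) m * (m : ℂ) ^ 3‖ ≤ (n : ℝ) ^ 3 := by
    intro m hm
    rw [norm_mul, norm_pow, Complex.norm_natCast]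
    refine (mul_le_of_le_one_left (by positivity) (hφ _ _)).trans ?_
    gcongr
    exact Nat.divisor_le hm
  refine (Finset.sum_le_card_nsmul _ _ _ h1).trans ?_
  rw [nsmul_eq_mul, pow_succ' (n : ℝ) 3]
  gcongr
  exact Nat.card_divisors_le_self n

lemma summable_dco (φ : ℕ → ℕ → ℂ) (hφ : ∀ c m, ‖φ c m‖ ≤ 1) {r : ℂ} (hr : ‖r‖ < 1) :
    Summable fun n : ℕ ↦ dco φ n * r ^ n := by
  apply Summable.of_norm_bounded (summable_norm_pow_mul_geometric_of_norm_lt_one 4 hr)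
  intro n
  simp only [norm_mul, Complex.norm_natCast, norm_pow]
  gcongr
  exact norm_dco_le φ hφ n

/-! ### the Eisenstein series -/

/-- The weight function `(c, d) ↦ [c ≡ a] e(-b d / M)`. -/
def wt (a b : ZMod M) (v : Fin 2 → ℤ) : ℂ :=
  if ((v 0 : ℤ) : ZMod M) = a then ee M (-(b * ((v 1 : ℤ) : ZMod M))) else 0

lemma norm_wt_le (a b : ZMod M) (v : Fin 2 → ℤ) : ‖wt M a b v‖ ≤ 1 := by
  unfold wt
  split_ifs
  · exact (norm_ee M _).le
  · simp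

/-- `[c ≡ a][m ≡ b]` -/
def ind (a b : ZMod M) (c m : ℕ) : ℚ := if (c : ZMod M) = a ∧ (m : ZMod M) = b then 1 else 0

lemma norm_ind_le (a b : ZMod M) (c m : ℕ) : ‖(ind M a b c m : ℂ)‖ ≤ 1 := by
  unfold ind
  split_ifs <;> simp

lemma summable_prod_wt (a b : ZMod M) (z : ℍ) :
    Summable fun x : ℤ × ℤ ↦ wt M a b ![x.1, x.2] * eisSummand 4 ![x.1, x.2] z := by
  refine (finTwoArrowEquiv ℤ).summable_iff.mp <|
    (summable_term (k := 4) (norm_wt_le M a b) (by norm_num) z).congr (fun v ↦ ?_)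
  simp [show ![v 0, v 1] = v from List.ofFn_inj.mp rfl]

/-- the row `c > 0`. -/
lemma row_pos (a b : ZMod M) (z : ℍ) (c : ℕ+) :
    ∑' d : ℤ, wt M a b ![((c : ℕ) : ℤ), d] * eisSummand 4 ![((c : ℕ) : ℤ), d] z =
      ((2 * π) ^ 4 / (6 * (M : ℂ) ^ 3)) * ∑' m : ℕ+, (ind M a b c m : ℂ) *
        (((m : ℕ) : ℂ) ^ 3 * cexp (2 * π * I * z / M) ^ ((c : ℕ) * (m : ℕ))) := by
  let w : ℍ := ⟨(c : ℕ) * z, by simpa using z.2⟩
  have H := tsum_char M w b
  by_cases hc : (((c : ℕ) : ℤ) : ZMod M) = a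
  · have hc' : ((c : ℕ) : ZMod M) = a := by simpa using hc
    have h1 : ∀ d : ℤ, wt M a b ![((c : ℕ) : ℤ), d] * eisSummand 4 ![((c : ℕ) : ℤ), d] z =
        ee M (-(b * (d : ZMod M))) * (((w : ℂ) + d) ^ 4)⁻¹ := by
      intro d
      simp only [wt, eisSummand, cons_val_zero, cons_val_one, Int.cast_natCast, if_pos hc']
      rw [show (-4 : ℤ) = -(4 : ℕ) by norm_num, _root_.zpow_neg, zpow_natCast]
    rw [tsum_congr h1, H]
    congr 1
    refine tsum_congr fun m => ?_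
    have : cexp (2 * π * I * (w : ℂ) / M) ^ (m : ℕ) =
        cexp (2 * π * I * z / M) ^ ((c : ℕ) * (m : ℕ)) := by
      rw [← Complex.exp_nat_mul, ← Complex.exp_nat_mul]
      congr 1
      show (m : ℕ) * (2 * π * I * ((c : ℕ) * (z : ℂ)) / M) = _
      push_cast
      ring
    rw [this]
    simp only [ind, hc', true_and]
    split_ifs <;> simp
  · have hc' : ¬ ((c : ℕ) : ZMod M) = a := by simpa using hc
    simp [wt, hc', ind]

/-- the row `c < 0`. -/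
lemma row_neg (a b : ZMod M) (z : ℍ) (c : ℕ+) :
    ∑' d : ℤ, wt M a b ![-((c : ℕ) : ℤ), d] * eisSummand 4 ![-((c : ℕ) : ℤ), d] z =
      ((2 * π) ^ 4 / (6 * (M : ℂ) ^ 3)) * ∑' m : ℕ+, (ind M (-a) (-b) c m : ℂ) *
        (((m : ℕ) : ℂ) ^ 3 * cexp (2 * π * I * z / M) ^ ((c : ℕ) * (m : ℕ))) := by
  rw [← row_pos, ← (Equiv.neg ℤ).tsum_eq]
  refine tsum_congr fun d => ?_
  simp only [wt, eisSummand, cons_val_zero, cons_val_one, Equiv.neg_apply, Int.cast_neg,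
    Int.cast_natCast, mul_neg, neg_mul, neg_neg]
  congr 1
  · simp only [neg_eq_iff_eq_neg]
  · rw [show -(((c : ℕ) : ℂ) * (z : ℂ)) + -(d : ℂ) = -(((c : ℕ) : ℂ) * z + d) by ring,
      show (-4 : ℤ) = -(4 : ℕ) by norm_num, _root_.zpow_neg, _root_.zpow_neg,
      zpow_natCast, zpow_natCast, Even.neg_pow (by decide)]

/-- the row `c = 0`. -/
lemma row_zero (a b : ZMod M) (z : ℍ) :
    ∑' d : ℤ, wt M a b ![0, d] * eisSummand 4 ![0, d] z =
      ((2 * π) ^ 4 / (6 * (M : ℂ) ^ 3)) * ((if a = 0 then cst M b else 0 : ℚ) : ℂ) := by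
  by_cases ha : a = 0
  · rw [if_pos ha, ← tsum_const]
    refine tsum_congr fun d => ?_
    simp only [wt, eisSummand, cons_val_zero, cons_val_one, Int.cast_zero, ha, if_true, zero_mul,
      zero_add]
    rw [show (-4 : ℤ) = -(4 : ℕ) by norm_num, _root_.zpow_neg, zpow_natCast]
  · have ha' : ¬ (0 : ZMod M) = a := fun h => ha h.symm
    simp [wt, ha, ha']

/-- The rational coefficients of the `t`-expansion. -/
def cU (a b : ZMod M) (n : ℕ) : ℚ :=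
  if n = 0 then (if a = 0 then cst M b else 0)
  else ∑ m ∈ n.divisors, (ind M a b (n / m) m + ind M (-a) (-b) (n / m) m) * (m : ℚ) ^ 3

lemma cU_zero (a b : ZMod M) : cU M a b 0 = if a = 0 then cst M b else 0 := by simp [cU]

lemma cU_of_ne_zero (a b : ZMod M) {n : ℕ} (hn : n ≠ 0) :
    cU M a b n =
      ∑ m ∈ n.divisors, (ind M a b (n / m) m + ind M (-a) (-b) (n / m) m) * (m : ℚ) ^ 3 := by
  simp [cU, hn]

lemma cU_cast (a b : ZMod M) {n : ℕ} (hn : n ≠ 0) :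
    (cU M a b n : ℂ) = dco (fun c m => (ind M a b c m : ℂ)) n +
      dco (fun c m => (ind M (-a) (-b) c m : ℂ)) n := by
  rw [cU_of_ne_zero M a b hn, dco, dco, ← Finset.sum_add_distrib]
  push_cast
  refine Finset.sum_congr rfl fun m _ => ?_
  ring

lemma summable_cU (a b : ZMod M) {r : ℂ} (hr : ‖r‖ < 1) :
    Summable fun n : ℕ => (cU M a b n : ℂ) * r ^ n := by
  have h1 := (summable_dco _ (norm_ind_le M a b) hr).add (summable_dco _ (norm_ind_le M (-a) (-b)) hr)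
  rw [← summable_nat_add_iff 1] at h1 ⊢
  refine h1.congr fun n => ?_
  rw [cU_cast M a b (Nat.succ_ne_zero n)]
  ring

/-- The normalising constant. -/
def kk : ℂ := 6 * (M : ℂ) ^ 3 / (2 * π) ^ 4

lemma kk_ne_zero : kk M ≠ 0 := by
  have hM : (M : ℂ) ≠ 0 := Nat.cast_ne_zero.mpr (NeZero.ne M)
  have hpi : (π : ℂ) ≠ 0 := by exact_mod_cast Real.pi_ne_zero
  unfold kk
  exact div_ne_zero (mul_ne_zero (by norm_num) (pow_ne_zero _ hM))
    (pow_ne_zero _ (mul_ne_zero two_ne_zero hpi))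

theorem wsum_wt_eq (a b : ZMod M) (z : ℍ) :
    kk M * wsum (wt M a b) 4 z = ∑' n : ℕ, (cU M a b n : ℂ) * cexp (2 * π * I * z / M) ^ n := by
  have hM : (M : ℂ) ≠ 0 := Nat.cast_ne_zero.mpr (NeZero.ne M)
  have hpi : (π : ℂ) ≠ 0 := by exact_mod_cast Real.pi_ne_zero
  have ht := norm_tq_lt_one M z
  set t := cexp (2 * π * I * z / M) with htdef
  unfold wsum
  rw [← (finTwoArrowEquiv ℤ).symm.tsum_eq, finTwoArrowEquiv_symm_apply,
    Summable.tsum_prod (summable_prod_wt M a b z),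
    tsum_int_eq_zero_add_tsum_pnat (by simpa using (summable_prod_wt M a b z).prod)]
  simp only
  rw [row_zero, tsum_congr (row_pos M a b z), tsum_congr (row_neg M a b z), tsum_mul_left,
    tsum_mul_left, ← htdef, tsum_phi_prod _ (norm_ind_le M a b) ht,
    tsum_phi_prod _ (norm_ind_le M (-a) (-b)) ht, ← mul_add, ← mul_add, ← mul_assoc,
    ← tsum_zero_pnat_eq_tsum_nat (summable_cU M a b ht), cU_zero, pow_zero, mul_one, add_assoc,
    ← Summable.tsum_add]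
  · have : kk M * ((2 * π) ^ 4 / (6 * (M : ℂ) ^ 3)) = 1 := by
      unfold kk
      field_simp
    rw [this, one_mul]
    congr 1
    refine tsum_congr fun n => ?_
    rw [cU_cast M a b n.ne_zero]
    ring
  · exact (summable_dco _ (norm_ind_le M a b) ht).comp_injective PNat.coe_injective
  · exact (summable_dco _ (norm_ind_le M (-a) (-b)) ht).comp_injective PNat.coe_injective

theorem hasSum_wsum_wt (a b : ZMod M) (z : ℍ) :
    HasSum (fun n : ℕ => (cU M a b n : ℂ) * cexp (2 * π * I * z / M) ^ n)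
      (kk M * wsum (wt M a b) 4 z) := by
  rw [wsum_wt_eq]
  exact (summable_cU M a b (norm_tq_lt_one M z)).hasSum

end

end EisQ

open EisQ in
theorem kap_eq : kap M = (2 * π) ^ 4 / (6 * (M : ℂ) ^ 3) := by
  have hI : (2 * (π : ℂ) * Complex.I) ^ 4 = (2 * π) ^ 4 := by
    have : (Complex.I : ℂ) ^ 4 = 1 := by
      rw [show (4 : ℕ) = 2 * 2 by norm_num, pow_mul, Complex.I_sq]; norm_num
    calc (2 * (π : ℂ) * Complex.I) ^ 4 = (2 * π) ^ 4 * Complex.I ^ 4 := by ring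
      _ = _ := by rw [this, mul_one]
  rw [kap, hI]

open EisQ in
theorem cst_eq (b : ZMod M) :
    cst M b = -(((b.val : ℚ) * ((M : ℚ) - b.val)) ^ 2) / (4 * M) + (M : ℚ) ^ 3 / 120 := by
  have hM : (M : ℚ) ≠ 0 := Nat.cast_ne_zero.mpr (NeZero.ne M)
  rw [cst, cstPoly]
  field_simp
  ring

open EisQ in
theorem zCoeff_eq_cU (a b : ZMod M) (n : ℕ) : zCoeff M a b n = cU M a b n := by
  unfold zCoeff cU
  by_cases hn : n = 0
  · rw [if_pos hn, if_pos hn, cst_eq]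
  · rw [if_neg hn, if_neg hn]
    refine Finset.sum_congr rfl fun m _ => ?_
    rw [mul_comm]
    rfl

/-- the constant term (Bernoulli polynomial `B₄`) -/
theorem tsum_zet_div_pow (b : ZMod M) :
    ∑' d : ℤ, zet M (-(((d : ℤ) : ZMod M) * b)) * ((d : ℂ) ^ 4)⁻¹ =
      kap M * ((-(((b.val : ℚ) * ((M : ℚ) - b.val)) ^ 2) / (4 * M) + (M : ℚ) ^ 3 / 120 : ℚ) : ℂ) := by
  rw [kap_eq, ← cst_eq, ← EisQ.tsum_const]
  refine tsum_congr fun d => ?_
  rw [mul_comm ((d : ℤ) : ZMod M) b]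
  rfl

/-- **the `q`-expansion** in the variable `e(z/M)`. -/
theorem hasSum_Zf (a b : ZMod M) (z : ℍ) :
    HasSum (fun n : ℕ => (zCoeff M a b n : ℂ) * Complex.exp (2 * π * Complex.I * z / M) ^ n)
      ((kap M)⁻¹ * Zf M a b z) := by
  have h := EisQ.hasSum_wsum_wt M a b z
  have h1 : EisQ.kk M = (kap M)⁻¹ := by
    rw [kap_eq, EisQ.kk, inv_div]
  have h2 : Zf M a b = GAL.EisChar.wsum (EisQ.wt M a b) 4 := by
    rw [Zf_eq_wsum]
    congr 1
    funext v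
    unfold EisQ.wt
    rw [mul_comm ((v 1 : ℤ) : ZMod M) b]
    rfl
  rw [h1, ← h2] at h
  simpa only [zCoeff_eq_cU] using h

/-- the same after `z = M τ`. -/
theorem hasSum_Zf_scal (a b : ZMod M) (τ : ℍ) :
    HasSum (fun n : ℕ => (zCoeff M a b n : ℂ) * Complex.exp (2 * π * Complex.I * τ) ^ n)
      ((kap M)⁻¹ * Zf M a b (scal M τ)) := by
  have hM : (M : ℂ) ≠ 0 := Nat.cast_ne_zero.mpr (NeZero.ne M)
  have h := hasSum_Zf M a b (scal M τ)
  have : 2 * π * Complex.I * ((scal M τ : ℍ) : ℂ) / M = 2 * π * Complex.I * τ := by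
    rw [coe_scal]
    field_simp
  rwa [this] at h

end Fermat.Agent.S48.ModL.Y
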