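import Fermat.Agent.S48.ModL.Y.EisQ
import Fermat.Agent.S24.HolPerMore
import Fermat.Agent.S24.Sigma

/-!
# S48 / MODL / Y, WP [Y1]: packaging the Eisenstein generators as `Hol`, `HolPer 1`, `MerPer 1`

Models: `S24/Sigma.lean` (`e4Scal`, `deltaScal`, `jdPer`, `toLaurent_jdPer`, `toMer_jdPer`),
`S24/QExp.lean` (`qExpansion_E4`, `qExpansion_discriminant`, `ofPowerSeries_qExpansion_comp_scal`,
`jqNModC_eq_div`), `S24/HolPerMore.lean` (`mem_HolPer_iff`, `qExpansion_coeff_unique_fun`).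
-/

set_option autoImplicit false

open UpperHalfPlane hiding I
open Function ModularCurve CongruenceSubgroup ModularForm EisensteinSeries
open scoped Manifold MatrixGroups Real
open Fermat.Agent.S24

namespace Fermat.Agent.S48.ModL.Y

noncomputable section

variable (M : ℕ) [NeZero M]

theorem zFun_mem_HolPer (a b : ZMod M) :
    (fun τ : ℍ => (kap M)⁻¹ * Zf M a b (scal M τ)) ∈ HolPer 1 := by
  rw [mem_HolPer_iff]
  refine ⟨?_, ?_, ?_⟩
  · exact (mdifferentiable_const (c := (kap M)⁻¹)).mul (mdiff_comp_scal M (mdiff_Zf M a b))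
  · intro τ
    have h1 := hasSum_Zf_scal M a b (((1 : ℕ) : ℝ) +ᵥ τ)
    have h2 := hasSum_Zf_scal M a b τ
    have e : Complex.exp (2 * π * Complex.I * ((((1 : ℕ) : ℝ) +ᵥ τ : ℍ) : ℂ)) =
        Complex.exp (2 * π * Complex.I * (τ : ℂ)) := by
      rw [coe_vadd]
      push_cast
      rw [mul_add, mul_one, add_comm, Complex.exp_add, Complex.exp_two_pi_mul_I, mul_one]
    rw [e] at h1
    exact h1.unique h2
  · exact (Filter.const_boundedAtFilter _ ((kap M)⁻¹)).mul
      (isBoundedAtImInfty_comp_scal M (isBoundedAtImInfty_Zf M a b))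

/-- `τ ↦ κ⁻¹ Z_{(a,b)}(M τ)`. -/
def zPer (a b : ZMod M) : HolPer 1 := ⟨_, zFun_mem_HolPer M a b⟩

theorem qExpHom_zPer (a b : ZMod M) :
    qExpHom 1 (zPer M a b) = (zS M a b).map (algebraMap ℚ ℂ) := by
  ext n
  rw [qExpHom_apply, PowerSeries.coeff_map, zS, PowerSeries.coeff_mk]
  refine (qExpansion_coeff_unique_fun (h := ((1 : ℕ) : ℝ)) (HolPer.pos 1)
    (HolPer.analyticAt 1 (zPer M a b))
    (c := fun n => algebraMap ℚ ℂ (zCoeff M a b n)) ?_ n).symm
  intro τ
  have h := hasSum_Zf_scal M a b τ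
  have e : Function.Periodic.qParam ((1 : ℕ) : ℝ) (τ : ℂ) = Complex.exp (2 * π * Complex.I * τ) := by
    rw [Function.Periodic.qParam]
    simp
  rw [e]
  exact h

/-- the generators as holomorphic functions -/
def holZ (a b : ZMod M) : Hol := ⟨holZfun M a b, mdiff_holZfun M a b⟩

/-- the Igusa family as holomorphic functions -/
def holG (a : Fin 2 → ZMod M) : Hol := ⟨holGfun M a, mdiff_holGfun M a⟩

@[simp] theorem coe_holZ (a b : ZMod M) : (holZ M a b : ℍ → ℂ) = holZfun M a b := rfl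

@[simp] theorem coe_holG (a : Fin 2 → ZMod M) : (holG M a : ℍ → ℂ) = holGfun M a := rfl

/-- the generators as quotients of periodic functions -/
def perZ (a b : ZMod M) : MerPer 1 :=
  algebraMap (HolPer 1) (MerPer 1) (zPer M a b) * algebraMap (HolPer 1) (MerPer 1) (e4Scal M) ^ 2 /
    algebraMap (HolPer 1) (MerPer 1) (deltaScal M)

local notation "ι" => HahnSeries.ofPowerSeries ℤ ℂ

omit [NeZero M] in
/-- `E₄² = fac · Δ` for `q`-expansions. -/
theorem ofPowerSeries_qExpansion_E4_sq :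
    ι (qExpansion 1 E₄) ^ 2 = coeffEmb ℂ fac * ι (qExpansion 1 ModularForm.discriminant) := by
  have hfac : coeffEmb ℂ fac = HahnSeries.single (-1 : ℤ) (1 : ℂ) *
      ι (facNum.map (Int.castRingHom ℂ)) := by
    rw [fac, coeffEmb, map_mul, coeffMap_single, map_one, coeffMap_ofPowerSeries,
      ← RingHom.comp_apply (PowerSeries.map (algebraMap ℚ ℂ)) (PowerSeries.map (Int.castRingHom ℚ)),
      ← PowerSeries.map_comp,
      RingHom.ext_int ((algebraMap ℚ ℂ).comp (Int.castRingHom ℚ)) (Int.castRingHom ℂ)]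
  rw [hfac, qExpansion_E4, qExpansion_discriminant, facNum, map_mul,
    map_mul, map_mul, map_pow, map_pow, HahnSeries.ofPowerSeries_X]
  have h1 : ι (ModularCurve.dedekindEtaUnitInv.map (Int.castRingHom ℂ)) *
      ι (ModularCurve.dedekindEtaUnit.map (Int.castRingHom ℂ)) = 1 := by
    rw [← map_mul, ← map_mul, mul_comm, ModularCurve.dedekindEtaUnit_mul_inv, map_one, map_one]
  have h2 : (HahnSeries.single (-1 : ℤ) (1 : ℂ)) * HahnSeries.single (1 : ℤ) (1 : ℂ) = 1 := by
    rw [HahnSeries.single_mul_single]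
    simp
  calc _ = ((HahnSeries.single (-1 : ℤ) (1 : ℂ)) * HahnSeries.single (1 : ℤ) (1 : ℂ)) *
        (ι (ModularCurve.eisenstein4.map (Int.castRingHom ℂ)) ^ 2 *
        (ι (ModularCurve.dedekindEtaUnitInv.map (Int.castRingHom ℂ)) *
          ι (ModularCurve.dedekindEtaUnit.map (Int.castRingHom ℂ)))) := by
        rw [h1, h2, one_mul, mul_one]
    _ = _ := by ring

theorem toLaurent_perZ (a b : ZMod M) : toLaurent 1 (perZ M a b) = coeffEmb ℂ (genZ M a b) := by
  have hz : ι (qExpansion ((1 : ℕ) : ℝ) (zPer M a b : ℍ → ℂ)) =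
      coeffEmb ℂ (HahnSeries.ofPowerSeries ℤ ℚ (zS M a b)) := by
    rw [coeffEmb, coeffMap_ofPowerSeries, ← qExpHom_zPer, qExpHom_apply]
  have h4 : ι (qExpansion 1 ((E₄ : ℍ → ℂ) ∘ scal M)) ^ 2 =
      coeffEmb ℂ (qExpand ℚ M fac) * ι (qExpansion 1 (ModularForm.discriminant ∘ scal M)) := by
    rw [ofPowerSeries_qExpansion_comp_scal M periodic_E4 mdiff_E4 isBoundedAtImInfty_E4,
      ofPowerSeries_qExpansion_comp_scal M periodic_discriminant mdiff_discriminant
        isBoundedAtImInfty_discriminant, coeffEmb, coeffMap_qExpand, ← map_pow, ← map_mul,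
      ofPowerSeries_qExpansion_E4_sq, coeffEmb]
  rw [perZ, map_div₀, map_mul, map_pow, toLaurent_algebraMap, toLaurent_algebraMap,
    toLaurent_algebraMap, hz, genZ, map_mul]
  have e1 : ((e4Scal M : HolPer 1) : ℍ → ℂ) = (E₄ : ℍ → ℂ) ∘ scal M := rfl
  have e2 : ((deltaScal M : HolPer 1) : ℍ → ℂ) = ModularForm.discriminant ∘ scal M := rfl
  rw [e1, e2, Nat.cast_one, h4, ← mul_assoc,
    mul_div_cancel_right₀ _ (ofPowerSeries_qExpansion_discriminant_scal_ne_zero M)]

theorem toMer_perZ (a b : ZMod M) : toMer 1 (perZ M a b) = algebraMap Hol Mer (holZ M a b) := by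
  have hne : algebraMap Hol Mer (inclHol 1 (deltaScal M)) ≠ 0 := by
    rw [Ne, map_eq_zero_iff _ (IsFractionRing.injective Hol Mer)]
    intro h
    have := congrFun (congrArg Subtype.val h) UpperHalfPlane.I
    exact discriminant_ne_zero _ this
  rw [perZ, map_div₀, map_mul, map_pow, toMer_algebraMap, toMer_algebraMap, toMer_algebraMap,
    div_eq_iff hne, ← map_pow, ← map_mul, ← map_mul]
  congr 1
  apply Subtype.ext
  funext τ
  show (kap M)⁻¹ * Zf M a b (scal M τ) * (E₄ (scal M τ)) ^ 2 =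
    holZfun M a b τ * ModularForm.discriminant (scal M τ)
  rw [holZfun, facFun, mul_assoc _ (_ / _), div_mul_cancel₀ _ (discriminant_ne_zero _)]

/-- `holG a = ∑_b ζ^{a₁ b} holZ (a₀, b)` in `Hol`. -/
theorem holG_eq_sum (a : Fin 2 → ZMod M) :
    holG M a = ∑ b : ZMod M, algebraMap ℂ Hol (zet M (a 1 * b)) * holZ M (a 0) b := by
  apply Subtype.ext
  funext τ
  rw [coe_holG, ← sum_zet_mul_holZfun]
  have : ((∑ b : ZMod M, algebraMap ℂ Hol (zet M (a 1 * b)) * holZ M (a 0) b : Hol) : ℍ → ℂ) =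
      ∑ b : ZMod M, ((algebraMap ℂ Hol (zet M (a 1 * b)) * holZ M (a 0) b : Hol) : ℍ → ℂ) := by
    exact map_sum (Hol.val) _ _
  rw [this, Finset.sum_apply]
  rfl

/-- `F(t^M)` as a power series -/
def expandPS (F : PowerSeries ℚ) : PowerSeries ℚ :=
  PowerSeries.mk fun n => if M ∣ n then F.coeff (n / M) else 0

theorem qExpand_ofPowerSeries (F : PowerSeries ℚ) :
    qExpand ℚ M (HahnSeries.ofPowerSeries ℤ ℚ F) = HahnSeries.ofPowerSeries ℤ ℚ (expandPS M F) := by
  have hM : 0 < M := Nat.pos_of_ne_zero (NeZero.ne M)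
  ext k
  by_cases hk : (M : ℤ) ∣ k
  · obtain ⟨m, rfl⟩ := hk
    rw [qExpand_coeff_mul]
    rcases le_or_gt 0 m with hm | hm
    · lift m to ℕ using hm
      rw [show (M : ℤ) * (m : ℤ) = ((M * m : ℕ) : ℤ) by push_cast; ring,
        HahnSeries.ofPowerSeries_apply_coeff, HahnSeries.ofPowerSeries_apply_coeff,
        expandPS, PowerSeries.coeff_mk, if_pos (dvd_mul_right _ _), Nat.mul_div_cancel_left _ hM]
    · rw [ofPowerSeries_coeff_of_neg _ hm, ofPowerSeries_coeff_of_neg]
      exact mul_neg_of_pos_of_neg (by exact_mod_cast hM) hm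
  · rw [qExpand_coeff_of_not_dvd _ _ hk]
    rcases le_or_gt 0 k with hk0 | hk0
    · lift k to ℕ using hk0
      rw [HahnSeries.ofPowerSeries_apply_coeff, expandPS, PowerSeries.coeff_mk,
        if_neg (fun h => hk (by exact_mod_cast h))]
    · exact (ofPowerSeries_coeff_of_neg _ hk0).symm

omit [NeZero M] in
theorem constantCoeff_facNum : PowerSeries.constantCoeff facNum = 1 := by
  rw [facNum, map_mul, map_pow, constantCoeff_eisenstein4, constantCoeff_dedekindEtaUnitInv]
  norm_num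

/-- low order coefficients of `genZ` (`M > 1`): the coefficient of `t^(n - M)`, `n < M`, is
`zCoeff n`  (`fac(t^M) = t^(-M) (1 + O(t^M))`). -/
theorem coeff_genZ (a b : ZMod M) (n : ℕ) (hn : n < M) :
    (genZ M a b).coeff ((n : ℤ) - M) = zCoeff M a b n := by
  have h1 : genZ M a b = HahnSeries.single (-(M : ℤ)) (1 : ℚ) *
      HahnSeries.ofPowerSeries ℤ ℚ (zS M a b * expandPS M (facNum.map (Int.castRingHom ℚ))) := by
    rw [genZ, fac, map_mul, qExpand_single, qExpand_ofPowerSeries, map_mul, mul_neg, mul_one]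
    ring
  rw [h1, sub_eq_add_neg, HahnSeries.coeff_single_mul_add, one_mul,
    HahnSeries.ofPowerSeries_apply_coeff, PowerSeries.coeff_mul,
    Finset.sum_eq_single (n, 0)]
  · rw [zS, PowerSeries.coeff_mk, expandPS, PowerSeries.coeff_mk, if_pos (dvd_zero _),
      Nat.zero_div, PowerSeries.coeff_map, PowerSeries.coeff_zero_eq_constantCoeff_apply,
      constantCoeff_facNum]
    simp
  · rintro ⟨i, j⟩ hij hne
    rw [Finset.HasAntidiagonal.mem_antidiagonal] at hij
    simp only at hij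
    have hj : j ≠ 0 := by
      rintro rfl
      exact hne (by rw [add_zero] at hij; rw [hij])
    have hjM : ¬ M ∣ j := fun h => by
      have := Nat.le_of_dvd (Nat.pos_of_ne_zero hj) h
      omega
    simp only [expandPS, PowerSeries.coeff_mk, if_neg hjM, mul_zero]
  · intro h
    exact absurd (Finset.HasAntidiagonal.mem_antidiagonal.mpr (add_zero n)) h

theorem zCoeff_one (hM : 2 < M) (a b : ZMod M) :
    zCoeff M a b 1 = if (a = 1 ∧ b = 1) ∨ (a = -1 ∧ b = -1) then 1 else 0 := by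
  have h2 : (1 : ZMod M) ≠ -1 := by
    intro h
    have h3 : ((2 : ℕ) : ZMod M) = 0 := by
      have : (1 : ZMod M) + 1 = 0 := by
        nth_rewrite 2 [h]
        exact add_neg_cancel 1
      push_cast
      rw [← this]
      norm_num
    rw [ZMod.natCast_eq_zero_iff] at h3
    exact absurd (Nat.le_of_dvd (by norm_num) h3) (by omega)
  unfold zCoeff
  rw [if_neg one_ne_zero, Nat.divisors_one, Finset.sum_singleton]
  simp only [Nat.cast_one, one_pow, one_mul, Nat.div_self one_pos]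
  by_cases h1 : a = 1 ∧ b = 1
  · obtain ⟨rfl, rfl⟩ := h1
    simp [h2]
  · by_cases h3 : a = -1 ∧ b = -1
    · obtain ⟨rfl, rfl⟩ := h3
      simp [h2]
    · have h1' : ¬ ((1 : ZMod M) = a ∧ (1 : ZMod M) = b) := fun h => h1 ⟨h.1.symm, h.2.symm⟩
      have h3' : ¬ ((1 : ZMod M) = -a ∧ (1 : ZMod M) = -b) := fun h =>
        h3 ⟨by rw [h.1, neg_neg], by rw [h.2, neg_neg]⟩
      rw [if_neg h1', if_neg h3', if_neg (not_or.mpr ⟨h1, h3⟩), add_zero]

/-- separation of the diagonal: used for `Lvl.sep`. -/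
theorem eq_or_eq_neg_of_holZ_eq (hM : 2 < M) (x : ZMod M) (h : holZ M x x = holZ M 1 1) :
    x = 1 ∨ x = -1 := by
  have h1 : perZ M x x = perZ M 1 1 := by
    apply toMer_injective 1
    rw [toMer_perZ, toMer_perZ, h]
  have h2 : coeffEmb ℂ (genZ M x x) = coeffEmb ℂ (genZ M 1 1) := by
    rw [← toLaurent_perZ, ← toLaurent_perZ, h1]
  have h3 : (genZ M x x).coeff (((1 : ℕ) : ℤ) - M) = (genZ M 1 1).coeff (((1 : ℕ) : ℤ) - M) := by
    have := congrArg (fun f => HahnSeries.coeff f (((1 : ℕ) : ℤ) - M)) h2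
    simp only [coeffEmb_coeff] at this
    exact (algebraMap ℚ ℂ).injective this
  have e1 : zCoeff M 1 1 1 = 1 := by rw [zCoeff_one M hM, if_pos (Or.inl ⟨rfl, rfl⟩)]
  rw [coeff_genZ M x x 1 (by omega), coeff_genZ M 1 1 1 (by omega), e1, zCoeff_one M hM] at h3
  by_contra hx
  rw [not_or] at hx
  rw [if_neg (by tauto)] at h3
  exact zero_ne_one h3

end

end Fermat.Agent.S48.ModL.Y
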